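import Fermat.Agent.S48.Kum.M4b1
import Fermat.Agent.S48.H848.DiaFinal
import Fermat.Agent.S29.H332.Growth

/-!
# S48 / Tower A1 / A1-KUM, leaf `dia` (helper528): the diamond formula `DiaAn1`

`Kum.DiaAn1 M p hpM`: if `G` realises `u ∈ ℚ̄·F₁(M)` then `G ∘ σ_p⁻¹` realises `diamondAut p • u`.

* `exists_frac_of_gens`   (algebra, generic): every element of `L·ℚ(S)` is a quotient of two
  elements of any subring-like predicate containing the constants and the generators;
* `diaAn_of_gens`         (generic in `Γ`, `S`, `δ`, `a`): `DiaAn` holds as soon as it holds on the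
  generators `S`;
* `diaAn1_of_isDiamond`   : `DiaAn1 M p hpM` from the existence of the diamond automorphism
  (`FF-DIA`, owner helper848), using the avatars `jFun ∘ (d·)` (S24) and `H76.pFun` (helper76);
* `diaAn1`                : `DiaAn1 M p hpM`, unconditional (with `H848.exists_isDiamond`).
-/

set_option autoImplicit false

noncomputable section

open ModularCurve AlgebraicCurve UpperHalfPlane CongruenceSubgroup
open scoped MatrixGroups Manifold

namespace Fermat.Agent.S48.H528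

open Fermat.Agent.S24 Fermat.Agent.S29 Fermat.Agent.S29.M4b Fermat.Agent.S29.M4b.H822
  Fermat.Agent.S48.Kum Fermat.Agent.S48.F1

/-! ### Fractions of generators -/

section Frac

variable {L : Type*} [Field L] [Algebra ℚ L] {S : Set (LaurentSeries ℚ)}

/-- The subfield of quotients `u₁ / u₂` with `P u₁`, `P u₂`. -/
def fracField (P : laurentBaseChange L (IntermediateField.adjoin ℚ S) → Prop)
    (hC : ∀ a : L, P (algebraMap L _ a))
    (hadd : ∀ u v, P u → P v → P (u + v)) (hmul : ∀ u v, P u → P v → P (u * v)) :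
    Subfield (LaurentSeries L) where
  carrier := {x | ∃ u₁ u₂ : laurentBaseChange L (IntermediateField.adjoin ℚ S),
    P u₁ ∧ P u₂ ∧ u₂ ≠ 0 ∧ x * (u₂ : LaurentSeries L) = (u₁ : LaurentSeries L)}
  one_mem' := by
    have h1 : P 1 := by simpa using hC 1
    exact ⟨1, 1, h1, h1, one_ne_zero, by simp⟩
  zero_mem' := by
    have h1 : P 1 := by simpa using hC 1
    have h0 : P 0 := by simpa using hC 0
    exact ⟨0, 1, h0, h1, one_ne_zero, by simp⟩
  mul_mem' := by
    rintro x y ⟨u₁, u₂, h1, h2, hne, hx⟩ ⟨v₁, v₂, k1, k2, kne, hy⟩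
    refine ⟨u₁ * v₁, u₂ * v₂, hmul _ _ h1 k1, hmul _ _ h2 k2, mul_ne_zero hne kne, ?_⟩
    push_cast
    rw [← hx, ← hy]
    ring
  add_mem' := by
    rintro x y ⟨u₁, u₂, h1, h2, hne, hx⟩ ⟨v₁, v₂, k1, k2, kne, hy⟩
    refine ⟨u₁ * v₂ + v₁ * u₂, u₂ * v₂, hadd _ _ (hmul _ _ h1 k2) (hmul _ _ k1 h2),
      hmul _ _ h2 k2, mul_ne_zero hne kne, ?_⟩
    push_cast
    rw [← hx, ← hy]
    ring
  neg_mem' := by
    rintro x ⟨u₁, u₂, h1, h2, hne, hx⟩
    have hm1 : P (-1) := by simpa using hC (-1)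
    refine ⟨-1 * u₁, u₂, hmul _ _ hm1 h1, h2, hne, ?_⟩
    push_cast
    rw [← hx]
    ring
  inv_mem' := by
    rintro x ⟨u₁, u₂, h1, h2, hne, hx⟩
    by_cases hx0 : x = 0
    · have h1' : P 1 := by simpa using hC 1
      have h0 : P 0 := by simpa using hC 0
      exact ⟨0, 1, h0, h1', one_ne_zero, by simp [hx0]⟩
    · have hu2 : (u₂ : LaurentSeries L) ≠ 0 := fun h => hne (Subtype.ext h)
      have hu1 : u₁ ≠ 0 := by
        intro h
        rw [h] at hx
        exact (mul_ne_zero hx0 hu2) hx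
      refine ⟨u₂, u₁, h2, h1, hu1, ?_⟩
      rw [← hx]
      field_simp

theorem coeffEmb_algebraMap_h528 (q : ℚ) :
    coeffEmb L (algebraMap ℚ (LaurentSeries ℚ) q) =
      algebraMap L (LaurentSeries L) (algebraMap ℚ L q) := by
  rw [algebraMap_laurent_eq_single, algebraMap_laurent_eq_single, coeffEmb, coeffMap_single]

/-- **Fraction induction**: if `P` holds for the constants and the generators and is stable under
`+` and `*`, then every element of `L·ℚ(S)` is a quotient `u₁ / u₂` with `P u₁`, `P u₂`. -/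
theorem exists_frac_of_gens (P : laurentBaseChange L (IntermediateField.adjoin ℚ S) → Prop)
    (hC : ∀ a : L, P (algebraMap L _ a))
    (hS : ∀ (z : LaurentSeries ℚ) (hz : z ∈ S),
      P ⟨coeffEmb L z, coeffEmb_mem_laurentBaseChange L (IntermediateField.subset_adjoin ℚ S hz)⟩)
    (hadd : ∀ u v, P u → P v → P (u + v)) (hmul : ∀ u v, P u → P v → P (u * v))
    (u : laurentBaseChange L (IntermediateField.adjoin ℚ S)) :
    ∃ u₁ u₂ : laurentBaseChange L (IntermediateField.adjoin ℚ S),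
      P u₁ ∧ P u₂ ∧ u₂ ≠ 0 ∧ u * u₂ = u₁ := by
  set T := fracField P hC hadd hmul with hT
  have h1 : P 1 := by simpa using hC 1
  have hconst : ∀ a : L, algebraMap L (LaurentSeries L) a ∈ T := fun a =>
    ⟨algebraMap L _ a, 1, hC a, h1, one_ne_zero, by simp⟩
  have key : ∀ z : LaurentSeries ℚ, z ∈ IntermediateField.adjoin ℚ S → coeffEmb L z ∈ T := by
    intro z hz
    induction hz using IntermediateField.adjoin_induction with
    | mem x hx =>
        exact ⟨⟨coeffEmb L x, coeffEmb_mem_laurentBaseChange L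
          (IntermediateField.subset_adjoin ℚ S hx)⟩, 1, hS x hx, h1, one_ne_zero, by simp⟩
    | algebraMap q =>
        rw [coeffEmb_algebraMap_h528]
        exact hconst _
    | add x y _ _ ihx ihy =>
        rw [map_add]
        exact T.add_mem ihx ihy
    | inv x _ ihx =>
        rw [map_inv₀]
        exact T.inv_mem ihx
    | mul x y _ _ ihx ihy =>
        rw [map_mul]
        exact T.mul_mem ihx ihy
  have hu : (u : LaurentSeries L) ∈ T := by
    have hu' := u.2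
    rw [mem_laurentBaseChange_iff] at hu'
    refine (Subfield.closure_le (t := T)).mpr ?_ hu'
    rintro x (⟨a, rfl⟩ | ⟨z, hz, rfl⟩)
    · exact hconst a
    · exact key z hz
  obtain ⟨u₁, u₂, h1, h2, hne, hx⟩ := hu
  exact ⟨u₁, u₂, h1, h2, hne, Subtype.ext hx⟩

end Frac

/-! ### Good functions and realisations: additions to the API of `Kum/Basic.lean` -/

section Good

variable {Γ : Subgroup SL(2, ℤ)} {F : KF}

theorem isGood_add_h528 {G H : ℍ → ℂ} (hG : IsGood Γ G) (hH : IsGood Γ H) :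
    IsGood Γ (G + H) := by
  obtain ⟨h1, h2, h3⟩ := hG
  obtain ⟨h1', h2', h3'⟩ := hH
  refine ⟨h1.add h1', fun γ hγ τ => ?_, fun g => ?_⟩
  · show G (γ • τ) + H (γ • τ) = G τ + H τ
    rw [h2 γ hγ τ, h2' γ hγ τ]
  · exact (h3 g).add (h3' g)

theorem realises_add_h528 (hT : ModularGroup.T ∈ Γ) {u v : F} {G H : ℍ → ℂ}
    (hu : Realises Γ F u G) (hv : Realises Γ F v H) : Realises Γ F (u + v) (G + H) := by
  refine realises_of_hasQExp (isGood_add_h528 hu.1 hv.1) ?_
  have := (hu.hasQExp hT).add (hv.hasQExp hT)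
  simpa using this

theorem realises_const_h528 (Γ : Subgroup SL(2, ℤ)) (F : KF) (c : Kbar) :
    Realises Γ F (algebraMap Kbar F c) (fun _ => Deg457.iotaC c) := by
  refine realises_of_hasQExp (isGood_const Γ _) ?_
  have h := H708.HasQExp.const 1 (Deg457.iotaC c)
  have e : coeffMap Deg457.iotaC ((algebraMap Kbar F c : F) : LaurentSeries Kbar)
      = HahnSeries.C (Deg457.iotaC c) := by
    have e1 : ((algebraMap Kbar F c : F) : LaurentSeries Kbar)
        = algebraMap Kbar (LaurentSeries Kbar) c := rfl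
    rw [e1, algebraMap_laurent_eq_single, coeffMap_single]
    rfl
  rw [e]
  exact h

/-- Composition of a good function with an element normalising `Γ` is good. -/
theorem isGood_comp_h528 {G : ℍ → ℂ} (hG : IsGood Γ G) (a : SL(2, ℤ))
    (ha : ∀ γ ∈ Γ, a * γ * a⁻¹ ∈ Γ) : IsGood Γ (fun τ => G (a • τ)) := by
  obtain ⟨h1, h2, h3⟩ := hG
  refine ⟨?_, fun γ hγ τ => ?_, fun g => ?_⟩
  · have h : MDifferentiable 𝓘(ℂ) 𝓘(ℂ)
        (fun τ : ℍ => (Matrix.SpecialLinearGroup.mapGL ℝ a) • τ) :=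
      UpperHalfPlane.mdifferentiable_smul (by simp)
    exact h1.comp h
  · show G (a • (γ • τ)) = G (a • τ)
    have e : a • (γ • τ) = (a * γ * a⁻¹) • (a • τ) := by
      rw [← mul_smul, ← mul_smul, mul_assoc, mul_assoc, inv_mul_cancel, mul_one]
    rw [e, h2 _ (ha γ hγ)]
  · have e : (fun τ : ℍ => G (a • (g • τ))) = fun τ => G ((a * g) • τ) := by
      funext τ
      rw [mul_smul]
    show H648.ExpGrowth (fun τ : ℍ => G (a • (g • τ)))
    rw [e]
    exact h3 (a * g)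

end Good

/-! ### The generic diamond formula -/

section Generic

variable {Γ : Subgroup SL(2, ℤ)} {S : Set (LaurentSeries ℚ)}

/-- The field `ℚ̄·ℚ(S)`. -/
abbrev FS (S : Set (LaurentSeries ℚ)) : KF :=
  laurentBaseChange Kbar (IntermediateField.adjoin ℚ S)

/-- **DIA-AN from the generators.**  Let `F = ℚ̄·ℚ(S)`, `δ` a `ℚ̄`-automorphism of `F` and
`a ∈ SL₂(ℤ)` normalising `Γ`.  If every generator `z ∈ S` is realised by some `G_z` such that
`G_z ∘ a` realises `δ z`, then `G ∘ a` realises `δ u` for EVERY realisation `G` of any `u ∈ F`. -/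
theorem diaAn_of_gens (hT : ModularGroup.T ∈ Γ)
    (δ : FS S ≃ₐ[Kbar] FS S)
    (a : SL(2, ℤ)) (ha : ∀ γ ∈ Γ, a * γ * a⁻¹ ∈ Γ)
    (hS : ∀ (z : LaurentSeries ℚ) (hz : z ∈ S), ∃ G : ℍ → ℂ,
      Realises Γ (FS S)
        ⟨coeffEmb Kbar z,
          coeffEmb_mem_laurentBaseChange Kbar (IntermediateField.subset_adjoin ℚ S hz)⟩ G ∧
      Realises Γ (FS S)
        (δ ⟨coeffEmb Kbar z,
          coeffEmb_mem_laurentBaseChange Kbar (IntermediateField.subset_adjoin ℚ S hz)⟩)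
        (fun τ => G (a • τ))) :
    DiaAn Γ (FS S) (SemilinearAut.ofAlgAut δ) a := by
  -- the predicate
  let P : FS S → Prop := fun u => ∃ G : ℍ → ℂ,
    Realises Γ (FS S) u G ∧ Realises Γ (FS S) (δ u) (fun τ => G (a • τ))
  have hC : ∀ c : Kbar, P (algebraMap Kbar (FS S) c) := by
    intro c
    refine ⟨fun _ => Deg457.iotaC c, realises_const_h528 Γ (FS S) c, ?_⟩
    rw [AlgEquiv.commutes]
    exact realises_const_h528 Γ (FS S) c
  have hadd : ∀ u v, P u → P v → P (u + v) := by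
    rintro u v ⟨G, hG, hG'⟩ ⟨H, hH, hH'⟩
    refine ⟨G + H, realises_add_h528 hT hG hH, ?_⟩
    rw [map_add]
    exact realises_add_h528 hT hG' hH'
  have hmul : ∀ u v, P u → P v → P (u * v) := by
    rintro u v ⟨G, hG, hG'⟩ ⟨H, hH, hH'⟩
    refine ⟨G * H, hG.mul hT hH, ?_⟩
    rw [map_mul]
    exact hG'.mul hT hH'
  intro u G hu
  obtain ⟨u₁, u₂, ⟨G₁, h₁, h₁'⟩, ⟨G₂, h₂, h₂'⟩, hne, hmulu⟩ :=
    exists_frac_of_gens P hC hS hadd hmul u
  -- `G * G₂ = G₁`
  have e : G * G₂ = G₁ := by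
    have h := hu.mul hT h₂
    rw [hmulu] at h
    exact h.unique_right hT h₁
  have hgood : IsGood Γ (fun τ => G (a • τ)) := isGood_comp_h528 hu.1 a ha
  refine ⟨hgood, ?_⟩
  have hq := hgood.hasQExp hT
  have hq2 := h₂'.hasQExp hT
  have hq1 := h₁'.hasQExp hT
  have hprod : (fun τ : ℍ => G (a • τ)) * (fun τ => G₂ (a • τ)) = fun τ => G₁ (a • τ) := by
    funext τ
    have := congrFun e (a • τ)
    exact this
  have hq12 := hq.mul hq2
  rw [hprod] at hq12
  have heq := hq12.unique hq1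
  -- cancel
  have hδ : δ u * δ u₂ = δ u₁ := by rw [← map_mul, hmulu]
  have hδ' : coeffMap Deg457.iotaC ((δ u : FS S) : LaurentSeries Kbar) *
      coeffMap Deg457.iotaC ((δ u₂ : FS S) : LaurentSeries Kbar) =
      coeffMap Deg457.iotaC ((δ u₁ : FS S) : LaurentSeries Kbar) := by
    rw [← map_mul, ← hδ]
    rfl
  have hne' : coeffMap Deg457.iotaC ((δ u₂ : FS S) : LaurentSeries Kbar) ≠ 0 := by
    intro h0
    have h1 : ((δ u₂ : FS S) : LaurentSeries Kbar) = 0 :=
      coeffMap_iotaC_injective (by rw [h0, map_zero])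
    have h2 : δ u₂ = 0 := Subtype.ext h1
    exact hne ((map_eq_zero_iff δ δ.injective).mp h2)
  show H708.qexpFun 1 (fun τ => G (a • τ)) =
    coeffMap Deg457.iotaC (((SemilinearAut.ofAlgAut δ • u : FS S)) : LaurentSeries Kbar)
  rw [SemilinearAut.ofAlgAut_smul]
  exact mul_right_cancel₀ hne' (heq.trans hδ'.symm)

end Generic

/-! ### The generators of `ℚ̄·F₁(M)` and their avatars -/

section Concrete

open Fermat.Agent.S48.H76 Fermat.Agent.S48.H548

theorem coeffMap_iotaC_coeffEmb_h528 (z : LaurentSeries ℚ) :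
    coeffMap Deg457.iotaC (coeffEmb Kbar z) = coeffEmb ℂ z := by
  rw [coeffEmb, coeffMap_coeffMap]
  exact coeffMap_congr (RingHom.ext fun c => by simp) z

variable (M : ℕ) [NeZero M]

omit [NeZero M] in
/-- `τ ↦ j(dτ)` realises `j(q^d)` (`d ∣ M`) for `Γ₁(M)`. -/
theorem realises_jd_h528 {d : ℕ} [NeZero d] (hd : d ∣ M)
    (hmem : coeffEmb Kbar (qExpand ℚ d jq) ∈ F1Bar M) :
    Realises (Gamma1 M) (F1Bar M) ⟨coeffEmb Kbar (qExpand ℚ d jq), hmem⟩
      (fun τ => JFun.jFun (Deg457.scaleH d τ)) := by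
  have hgood : IsGood (Gamma0 M) (fun τ => JFun.jFun (Deg457.scaleH d τ)) :=
    H648.jFun_scale_mem_goodRing M d (Nat.pos_of_ne_zero (NeZero.ne d)) hd (Deg457.scaleH d)
      (Deg457.coe_scaleH d)
  refine realises_of_hasQExp (hgood.mono (Gamma1_in_Gamma0 M)) ?_
  show H708.HasQExp 1 _ (coeffMap Deg457.iotaC (coeffEmb Kbar (qExpand ℚ d jq)))
  rw [coeffMap_iotaC_coeffEmb_h528]
  exact Deg457.hasQExp_jFun_scale d

omit [NeZero M] in
theorem jd_comp_Gamma0_h528 {d : ℕ} [NeZero d] (hd : d ∣ M) (a : SL(2, ℤ)) (ha : a ∈ Gamma0 M) :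
    (fun τ => JFun.jFun (Deg457.scaleH d (a • τ))) = fun τ => JFun.jFun (Deg457.scaleH d τ) := by
  have hgood : IsGood (Gamma0 M) (fun τ => JFun.jFun (Deg457.scaleH d τ)) :=
    H648.jFun_scale_mem_goodRing M d (Nat.pos_of_ne_zero (NeZero.ne d)) hd (Deg457.scaleH d)
      (Deg457.coe_scaleH d)
  funext τ
  exact hgood.2.1 a ha τ

/-- `pFun M b` is good for `Γ₁(M)`. -/
theorem isGood_pFun_h528 (b : ZMod M) : IsGood (Gamma1 M) (pFun M b) := by
  refine ⟨mdiff_pFun M b, fun γ hγ τ => pFun_smul_Gamma1 M b γ hγ τ, fun g => ?_⟩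
  obtain ⟨φ, hφ⟩ := (pFun_mem_holN M b).2 g
  exact Fermat.Agent.S29.H332.expGrowth_of_infExp hφ

/-- `pFun M b` realises the division value `P_b`. -/
theorem realises_pFun_h528 {b : ZMod M} (hb : b ≠ 0)
    (hmem : coeffEmb Kbar (divGen M b) ∈ F1Bar M) :
    Realises (Gamma1 M) (F1Bar M) ⟨coeffEmb Kbar (divGen M b), hmem⟩ (pFun M b) := by
  refine realises_of_hasQExp (isGood_pFun_h528 M b) ?_
  show H708.HasQExp 1 _ (coeffMap Deg457.iotaC (coeffEmb Kbar (divGen M b)))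
  rw [coeffMap_iotaC_coeffEmb_h528]
  have e : coeffEmb ℂ (divGen M b) = divGenC ℂ M b := by
    rw [divGen, coeffEmb, coeffMap_divGenC]
  rw [e]
  exact Fermat.Agent.S29.H332.hasQExp_of_infExp (mdiff_pFun M b) (infExp_pFun M hb)

variable {M} in
theorem sigmaP_inv_mem_h528 {p : ℕ} [Fact p.Prime] (hpM : ¬ p ∣ M) :
    (sigmaP M p hpM)⁻¹ ∈ Gamma0 M :=
  (Gamma0 M).inv_mem (sigmaP_mem hpM)

variable {M} in
theorem sigmaP_inv_upper_h528 {p : ℕ} [Fact p.Prime] (hpM : ¬ p ∣ M) :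
    ((((sigmaP M p hpM)⁻¹ : SL(2, ℤ)) 0 0 : ℤ) : ZMod M) = (p : ZMod M) := by
  have e : (((sigmaP M p hpM)⁻¹ : SL(2, ℤ)) 0 0 : ℤ) = (sigmaP M p hpM) 1 1 := by
    rw [Matrix.SpecialLinearGroup.SL2_inv_expl]
    rfl
  rw [e, sigmaP_lower hpM]

/-- **Leaf `dia` of A1-KUM** from the existence of the diamond automorphism (FF-DIA). -/
theorem diaAn1_of_isDiamond (p : ℕ) [Fact p.Prime] (hpM : ¬ p ∣ M)
    (hdia : ∃ σ : F1L Kbar M ≃ₐ[Kbar] F1L Kbar M, IsDiamond Kbar M (unitOf M p) σ) :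
    DiaAn1 M p hpM := by
  have hD := isDiamond_diamondAut Kbar M (unitOf M p) hdia
  have hcop : Nat.Coprime p M := (Nat.Prime.coprime_iff_not_dvd Fact.out).mpr hpM
  have hunit : ((unitOf M p : (ZMod M)ˣ) : ZMod M) = (p : ZMod M) := coe_unitOf M hcop
  refine diaAn_of_gens (Γ := Gamma1 M) (S := divisorExpansions M ∪ divGens M)
    (T_mem_Gamma1 M) (diamondAut Kbar M (unitOf M p)) (sigmaP M p hpM)⁻¹
    (sigmaP_inv_conj_mem hpM) ?_
  rintro z (⟨d, hd0, hd, rfl⟩ | ⟨b, hb, rfl⟩)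
  · -- `j(q^d)`
    have hmem : coeffEmb Kbar (qExpand ℚ d jq) ∈ F1Bar M :=
      coeffEmb_mem_laurentBaseChange Kbar (jqd_mem_F1 M hd)
    refine ⟨fun τ => JFun.jFun (Deg457.scaleH d τ), realises_jd_h528 M hd hmem, ?_⟩
    have hfix : diamondAut Kbar M (unitOf M p) ⟨coeffEmb Kbar (qExpand ℚ d jq), hmem⟩
        = ⟨coeffEmb Kbar (qExpand ℚ d jq), hmem⟩ :=
      hD.1 _ (coeffEmb_mem_laurentBaseChange Kbar (jqd_mem_full M hd))
    have hcomp := jd_comp_Gamma0_h528 M hd (sigmaP M p hpM)⁻¹ (sigmaP_inv_mem_h528 hpM)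
    show Realises (Gamma1 M) (F1Bar M)
      (diamondAut Kbar M (unitOf M p) ⟨coeffEmb Kbar (qExpand ℚ d jq), hmem⟩)
      (fun τ => JFun.jFun (Deg457.scaleH d ((sigmaP M p hpM)⁻¹ • τ)))
    rw [hfix, hcomp]
    exact realises_jd_h528 M hd hmem
  · -- `P_b`
    have hmem : coeffEmb Kbar (divGen M b) ∈ F1Bar M :=
      coeffEmb_mem_laurentBaseChange Kbar (divGen_mem_F1 M hb)
    have hpb : (unitOf M p : ZMod M) * b ≠ 0 := by
      intro h
      exact hb ((Units.mul_right_eq_zero (unitOf M p)).mp h)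
    have hmem' : coeffEmb Kbar (divGen M ((unitOf M p : ZMod M) * b)) ∈ F1Bar M :=
      coeffEmb_mem_laurentBaseChange Kbar (divGen_mem_F1 M hpb)
    refine ⟨pFun M b, realises_pFun_h528 M hb hmem, ?_⟩
    have hmove : diamondAut Kbar M (unitOf M p) ⟨coeffEmb Kbar (divGen M b), hmem⟩
        = ⟨coeffEmb Kbar (divGen M ((unitOf M p : ZMod M) * b)), hmem'⟩ :=
      hD.2 b _ _ hb rfl rfl
    have hcomp : (fun τ => pFun M b ((sigmaP M p hpM)⁻¹ • τ))
        = pFun M ((unitOf M p : ZMod M) * b) := by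
      have h := compSL_pFun M b (sigmaP M p hpM)⁻¹ (sigmaP_inv_mem_h528 hpM)
      rw [sigmaP_inv_upper_h528 hpM, ← hunit, mul_comm] at h
      exact h
    show Realises (Gamma1 M) (F1Bar M)
      (diamondAut Kbar M (unitOf M p) ⟨coeffEmb Kbar (divGen M b), hmem⟩)
      (fun τ => pFun M b ((sigmaP M p hpM)⁻¹ • τ))
    rw [hmove, hcomp]
    exact realises_pFun_h528 M hpb hmem'

/-- **Leaf `dia` of sub-tower A1-KUM** (`Kum.Leaves.dia`), unconditional:
if `G` realises `u ∈ ℚ̄·F₁(M)` then `G ∘ σ_p⁻¹` realises `diamondAut p • u`. -/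
theorem diaAn1 (p : ℕ) [Fact p.Prime] (hpM : ¬ p ∣ M) : DiaAn1 M p hpM :=
  diaAn1_of_isDiamond M p hpM (Fermat.Agent.S48.H848.exists_isDiamond M (unitOf M p))

end Concrete

end Fermat.Agent.S48.H528
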