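import Mathlib
import Fermat.Agent.S29.H332.WeightedEis
import Fermat.Agent.S22T.Expand
import Fermat.Agent.S48.H128.TsumWeight
import Fermat.Agent.S20.C0_helper516

import Fermat.Agent.S23.H143.PrimElt
import Fermat.Agent.S48.H528.Gen
import Fermat.Agent.S23.Cap.TForm
import Fermat.Agent.S48.INT.Spec

/-! # S48 / INT (helper528): rational structure of `S_k(Γ₁(M))` (merged file) -/

section PartEisPsi

/-!
# S48 / INT (helper528): weight 3 Eisenstein series attached to an odd function on `ℤ/M`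

For `ψ : ZMod M → ℂ`, `eisPsi ψ z = ∑_{(c,d) ∈ ℤ²} ψ(c) (c z + d)^{-3}` (same construction as
`H128.eisChar`, for an arbitrary bounded odd function instead of a Dirichlet character).

* `eisPsi_slash` : `eisPsi ψ ∣[3] γ = eisPsi (ψ(· d_γ))` for `γ ∈ Γ₀(M)`;
* `eisPsiN_mem_MF` : the normalised series is a modular form of weight 3 on `Γ₁(M)`;
* `qExpansion_eisPsiN_coeff` : for odd `ψ` its q-expansion is `∑_n (∑_{d c = n} ψ(d) c²) qⁿ`.
-/

set_option autoImplicit false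

open UpperHalfPlane EisensteinSeries ModularForm Filter Topology Complex CongruenceSubgroup
open scoped Matrix MatrixGroups Manifold Real

noncomputable section

namespace Fermat.Agent.S48.H528

open Fermat.Agent.S29 Fermat.Agent.S48.H128
open Fermat.Agent.S20 (MF SF)

variable {M : ℕ} (ψ : ZMod M → ℂ)

/-- The weight `v ↦ ψ(v₀)`. -/
def psiWeight (v : Fin 2 → ℤ) : ℂ := ψ ((v 0 : ℤ) : ZMod M)

theorem norm_psiWeight_le (hb : ∀ x, ‖ψ x‖ ≤ 1) (v : Fin 2 → ℤ) : ‖psiWeight ψ v‖ ≤ 1 :=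
  hb _

/-- The weight 3 Eisenstein series `∑ ψ(c) (c z + d)^{-3}`. -/
def eisPsi : ℍ → ℂ := H332.wEis (psiWeight ψ) 3

theorem eisPsi_mdiff (hb : ∀ x, ‖ψ x‖ ≤ 1) : MDiff (eisPsi ψ) :=
  H332.wEis_mdifferentiable (norm_psiWeight_le ψ hb) le_rfl

theorem eisPsi_slash_isBoundedAtImInfty (hb : ∀ x, ‖ψ x‖ ≤ 1) (g : SL(2, ℤ)) :
    IsBoundedAtImInfty (eisPsi ψ ∣[(3 : ℤ)] g) :=
  H332.wEis_slash_isBoundedAtImInfty (norm_psiWeight_le ψ hb) le_rfl g

theorem psiWeight_vecMul_inv (γ : SL(2, ℤ)) (hγ : γ ∈ Gamma0 M) (v : Fin 2 → ℤ) :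
    psiWeight ψ (v ᵥ* (γ⁻¹).1) =
      psiWeight (fun x => ψ (x * ((γ 1 1 : ℤ) : ZMod M))) v := by
  have h10 : ((γ 1 0 : ℤ) : ZMod M) = 0 := Gamma0_mem.mp hγ
  have hinv : (γ⁻¹).1 = !![γ 1 1, -γ 0 1; -γ 1 0, γ 0 0] := by
    rw [Matrix.SpecialLinearGroup.coe_inv, Matrix.adjugate_fin_two]
  have h0 : (v ᵥ* (γ⁻¹).1) 0 = v 0 * γ 1 1 + v 1 * (-γ 1 0) := by
    rw [hinv]
    simp [Matrix.vecMul, dotProduct, Fin.sum_univ_two]
  unfold psiWeight
  rw [h0]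
  congr 1
  push_cast
  rw [h10]
  ring

theorem eisPsi_slash (γ : SL(2, ℤ)) (hγ : γ ∈ Gamma0 M) :
    eisPsi ψ ∣[(3 : ℤ)] γ = eisPsi (fun x => ψ (x * ((γ 1 1 : ℤ) : ZMod M))) := by
  unfold eisPsi
  rw [H332.wEis_slash]
  ext z
  simp only [H332.wEis]
  refine tsum_congr fun v => ?_
  rw [psiWeight_vecMul_inv ψ γ hγ]

theorem eisPsi_slash_Gamma1 (γ : SL(2, ℤ)) (hγ : γ ∈ Gamma1 M) :
    eisPsi ψ ∣[(3 : ℤ)] γ = eisPsi ψ := by
  have hγ0 : γ ∈ Gamma0 M := Gamma1_in_Gamma0 M hγ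
  have h11 : ((γ 1 1 : ℤ) : ZMod M) = 1 := ((Gamma1_mem M γ).mp hγ).2.1
  rw [eisPsi_slash ψ γ hγ0]
  simp only [h11, mul_one]

/-! ## The `q`-expansion -/

/-- The function `ψ` as a weight on `ℕ`. -/
def psiNat (d : ℕ) : ℂ := ψ ((d : ℕ) : ZMod M)

theorem norm_psiNat_le (hb : ∀ x, ‖ψ x‖ ≤ 1) (d : ℕ) : ‖psiNat ψ d‖ ≤ 1 := hb _

/-- The twisted divisor sum `∑_{d c = n} ψ(d) c²`. -/
def sigmaPsi (n : ℕ) : ℂ := sigmaW (psiNat ψ) 2 n

theorem sigmaPsi_zero : sigmaPsi ψ 0 = 0 := sigmaW_zero _ _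

theorem sigmaPsi_one : sigmaPsi ψ 1 = ψ 1 := by
  rw [sigmaPsi, sigmaW_one, psiNat]
  simp

theorem summable_psi_prod (hb : ∀ x, ‖ψ x‖ ≤ 1) (z : ℍ) :
    Summable fun x : ℤ × ℤ ↦ psiWeight ψ ![x.1, x.2] * eisSummand 3 ![x.1, x.2] z := by
  have h := H332.summable_wEis (norm_psiWeight_le ψ hb) (k := 3) le_rfl z
  refine (finTwoArrowEquiv ℤ).summable_iff.mp (h.congr fun v => ?_)
  simp [show ![v 0, v 1] = v from List.ofFn_inj.mp rfl]

theorem psi_zero_of_odd (hodd : ∀ x, ψ (-x) = -ψ x) : ψ (0 : ZMod M) = 0 := by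
  have h := hodd 0
  rw [neg_zero] at h
  have h2 : (2 : ℂ) * ψ 0 = 0 := by linear_combination h
  rcases mul_eq_zero.mp h2 with h3 | h3
  · norm_num at h3
  · exact h3

theorem eisPsi_eq_tsum (hb : ∀ x, ‖ψ x‖ ≤ 1) (hodd : ∀ x, ψ (-x) = -ψ x) (z : ℍ) :
    eisPsi ψ z = (-2 * π * Complex.I) ^ 3 *
      ∑' n : ℕ+, sigmaPsi ψ n * cexp (2 * π * Complex.I * z) ^ (n : ℕ) := by
  have hsum := summable_psi_prod ψ hb z
  unfold eisPsi H332.wEis
  rw [← (finTwoArrowEquiv ℤ).symm.tsum_eq]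
  simp only [finTwoArrowEquiv_symm_apply]
  rw [hsum.tsum_prod, tsum_int_eq_zero_add_two_mul_tsum_pnat (fun n ↦ ?h₁)
      (by simpa using hsum.prod)]
  case h₁ =>
    nth_rewrite 1 [← tsum_comp_neg]
    refine tsum_congr fun y => ?_
    have hc : psiWeight ψ ![-n, -y] = - psiWeight ψ ![n, y] := by
      simp only [psiWeight, Matrix.cons_val_zero]
      rw [Int.cast_neg, hodd]
    have he : eisSummand 3 ![-n, -y] z = - eisSummand 3 ![n, y] z := by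
      simp only [eisSummand, Matrix.cons_val_zero, Matrix.cons_val_one, Int.cast_neg]
      rw [show (-(n : ℂ) * (z : ℂ) + -(y : ℂ)) = -((n : ℂ) * z + y) by ring]
      rw [Odd.neg_zpow (by decide : Odd (-3 : ℤ))]
    rw [hc, he, neg_mul_neg]
  have h0 : ∑' d : ℤ, psiWeight ψ ![0, d] * eisSummand 3 ![0, d] z = 0 := by
    have : ∀ d : ℤ, psiWeight ψ ![0, d] * eisSummand 3 ![0, d] z = 0 := fun d => by
      simp [psiWeight, psi_zero_of_odd ψ hodd]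
    simp [this]
  rw [h0, zero_add]
  have H (b : ℕ+) := qExpansion_identity_pnat (k := 2) (by norm_num)
    ⟨b * z, by simpa using z.2⟩
  have hterm : ∀ b : ℕ+, ∑' d : ℤ, psiWeight ψ ![(b : ℤ), d] * eisSummand 3 ![(b : ℤ), d] z =
      ((-2 * π * Complex.I) ^ 3 / 2) * ∑' c : ℕ+, psiNat ψ b * (c : ℂ) ^ 2 *
        cexp (2 * π * Complex.I * z) ^ (b * c : ℕ) := by
    intro b
    have hb' := H b
    simp only at hb'
    have h1 : ∀ d : ℤ, psiWeight ψ ![(b : ℤ), d] * eisSummand 3 ![(b : ℤ), d] z =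
        psiNat ψ b * (1 / ((b : ℂ) * z + d) ^ (2 + 1)) := by
      intro d
      simp only [psiWeight, psiNat, eisSummand, Matrix.cons_val_zero, Matrix.cons_val_one]
      congr 1
      · simp
      · rw [show (-(3 : ℤ)) = -((3 : ℕ) : ℤ) by norm_num, zpow_neg, zpow_natCast]
        simp
    simp_rw [h1]
    rw [tsum_mul_left, hb', Nat.factorial_two]
    rw [← tsum_mul_left, ← tsum_mul_left, ← tsum_mul_left]
    refine tsum_congr fun c => ?_
    rw [← Complex.exp_nat_mul, ← Complex.exp_nat_mul]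
    push_cast
    ring_nf
  simp_rw [hterm]
  simp only [sigmaPsi]
  rw [tsum_mul_left, ← tsum_prod_weight_eq (psiNat ψ) (norm_psiNat_le ψ hb) 2
    (norm_exp_two_pi_I_lt_one z), nsmul_eq_mul]
  push_cast
  ring

theorem norm_sigmaPsi_le (hb : ∀ x, ‖ψ x‖ ≤ 1) (n : ℕ) : ‖sigmaPsi ψ n‖ ≤ (n : ℝ) ^ 3 := by
  unfold sigmaPsi sigmaW
  refine (norm_sum_le _ _).trans ?_
  have h1 : ∀ x ∈ n.divisorsAntidiagonal, ‖psiNat ψ x.1 * (x.2 : ℂ) ^ 2‖ ≤ (n : ℝ) ^ 2 := by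
    intro x hx
    rw [norm_mul, norm_pow, Complex.norm_natCast]
    have hx' := Nat.mem_divisorsAntidiagonal.mp hx
    have hle : x.2 ≤ n := Nat.le_of_dvd (Nat.pos_of_ne_zero hx'.2) ⟨x.1, by rw [← hx'.1, mul_comm]⟩
    have hle' : (x.2 : ℝ) ≤ n := by exact_mod_cast hle
    calc ‖psiNat ψ x.1‖ * (x.2 : ℝ) ^ 2 ≤ 1 * (n : ℝ) ^ 2 := by
          gcongr
          exact norm_psiNat_le ψ hb _
      _ = (n : ℝ) ^ 2 := one_mul _
  refine (Finset.sum_le_card_nsmul _ _ _ h1).trans ?_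
  rw [nsmul_eq_mul]
  have hcard : (n.divisorsAntidiagonal.card : ℝ) ≤ n := by
    rw [← Nat.map_div_right_divisors, Finset.card_map]
    exact_mod_cast Nat.card_divisors_le_self n
  calc (n.divisorsAntidiagonal.card : ℝ) * (n : ℝ) ^ 2 ≤ n * (n : ℝ) ^ 2 := by gcongr
    _ = (n : ℝ) ^ 3 := by ring

theorem summable_sigmaPsi_mul_pow (hb : ∀ x, ‖ψ x‖ ≤ 1) (z : ℍ) :
    Summable fun n : ℕ ↦ sigmaPsi ψ n * cexp (2 * π * Complex.I * z) ^ n := by
  apply Summable.of_norm_bounded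
    (summable_norm_pow_mul_geometric_of_norm_lt_one 3 (norm_exp_two_pi_I_lt_one z))
  intro n
  simp only [norm_mul, norm_pow, Complex.norm_natCast]
  gcongr
  exact norm_sigmaPsi_le ψ hb n

local notation "𝕢" => Function.Periodic.qParam

theorem hasSum_eisPsi (hb : ∀ x, ‖ψ x‖ ≤ 1) (hodd : ∀ x, ψ (-x) = -ψ x) (z : ℍ) :
    HasSum (fun n : ℕ => ((-2 * π * Complex.I) ^ 3 * sigmaPsi ψ n) • 𝕢 1 z ^ n) (eisPsi ψ z) := by
  have hS := summable_sigmaPsi_mul_pow ψ hb z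
  have h1 : ∑' n : ℕ+, sigmaPsi ψ n * cexp (2 * π * Complex.I * z) ^ (n : ℕ) =
      ∑' n : ℕ, sigmaPsi ψ n * cexp (2 * π * Complex.I * z) ^ n := by
    rw [← tsum_zero_pnat_eq_tsum_nat hS]
    simp [sigmaPsi_zero]
  rw [eisPsi_eq_tsum ψ hb hodd z, h1]
  have h2 := (hS.mul_left ((-2 * π * Complex.I) ^ 3)).hasSum
  rw [tsum_mul_left] at h2
  convert! h2 using 1
  funext n
  simp only [smul_eq_mul, Function.Periodic.qParam, Complex.ofReal_one, div_one]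
  ring

/-- The `q`-expansion of `eisPsi ψ`, `ψ` odd. -/
theorem qExpansion_eisPsi_coeff (hb : ∀ x, ‖ψ x‖ ≤ 1) (hodd : ∀ x, ψ (-x) = -ψ x) (n : ℕ) :
    (qExpansion 1 (eisPsi ψ)).coeff n = (-2 * π * Complex.I) ^ 3 * sigmaPsi ψ n :=
  Fermat.Agent.S22T.qExpansion_coeff_of_hasSum one_pos (hasSum_eisPsi ψ hb hodd)
    (eisPsi_mdiff ψ hb) n

theorem analyticAt_cuspFunction_eisPsi (hb : ∀ x, ‖ψ x‖ ≤ 1) (hodd : ∀ x, ψ (-x) = -ψ x) :
    AnalyticAt ℂ (cuspFunction 1 (eisPsi ψ)) 0 :=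
  Fermat.Agent.S22T.mem_analyticSubring_of_hasSum one_pos (hasSum_eisPsi ψ hb hodd)
    (eisPsi_mdiff ψ hb)

/-! ## The normalised series -/

/-- The normalised weight 3 Eisenstein series, `q`-expansion `∑ σ_ψ(n) qⁿ`. -/
def eisPsiN : ℍ → ℂ := ((-2 * π * Complex.I) ^ 3)⁻¹ • eisPsi ψ

theorem two_pi_I_cube_ne_zero : ((-2 * π * Complex.I) ^ 3 : ℂ) ≠ 0 := by
  apply pow_ne_zero
  simp [Real.pi_ne_zero, Complex.I_ne_zero]

theorem eisPsiN_mem_MF (hb : ∀ x, ‖ψ x‖ ≤ 1) : eisPsiN ψ ∈ MF (Gamma1 M) 3 := by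
  refine ⟨(eisPsi_mdiff ψ hb).const_smul _, fun γ hγ => ?_, fun γ => ?_⟩
  · rw [eisPsiN, Fermat.Agent.S20.smul_slash_SL, eisPsi_slash_Gamma1 ψ γ hγ]
  · rw [eisPsiN, Fermat.Agent.S20.smul_slash_SL]
    exact (eisPsi_slash_isBoundedAtImInfty ψ hb γ).const_smul_left _

theorem eisPsiN_slash (γ : SL(2, ℤ)) (hγ : γ ∈ Gamma0 M) :
    eisPsiN ψ ∣[(3 : ℤ)] γ = eisPsiN (fun x => ψ (x * ((γ 1 1 : ℤ) : ZMod M))) := by
  rw [eisPsiN, Fermat.Agent.S20.smul_slash_SL, eisPsi_slash ψ γ hγ]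
  rfl

theorem qExpansion_eisPsiN_coeff (hb : ∀ x, ‖ψ x‖ ≤ 1) (hodd : ∀ x, ψ (-x) = -ψ x) (n : ℕ) :
    (qExpansion 1 (eisPsiN ψ)).coeff n = sigmaPsi ψ n := by
  rw [eisPsiN, qExpansion_smul (analyticAt_cuspFunction_eisPsi ψ hb hodd), map_smul,
    qExpansion_eisPsi_coeff ψ hb hodd, smul_eq_mul, ← mul_assoc,
    inv_mul_cancel₀ two_pi_I_cube_ne_zero, one_mul]

end Fermat.Agent.S48.H528

end

end PartEisPsi

section PartTForm1

/-!
# S48 / INT (helper528): a distinguishing form for `Γ₁(M)`, `M ≥ 3`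

`t_c = (A + c E₄) · B`, of weight `7`, where `A = M³ E₄(Mτ)` (`H143.primElt`, distinguishes the
cosets of `Γ₀(M)`) and `B = ∑_n (∑_{dc = n} ψ(d) c²) qⁿ`, `ψ = ±1` at `±1 mod M`
(distinguishes the cosets of `Γ₁(M)` in `Γ₀(M)`).  For all but finitely many `c ∈ ℕ`:
`t_c` is a modular form on `Γ₁(M)` with integral q-expansion and `t_c ∣ γ ≠ t_c` for every
`γ ∈ SL₂(ℤ) \ Γ₁(M)`  (`exists_tForm_Gamma1`).
-/

set_option autoImplicit false
set_option linter.unusedSectionVars false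
set_option linter.unusedSimpArgs false
set_option linter.style.haveILetI false

open UpperHalfPlane EisensteinSeries ModularForm Filter Topology Complex CongruenceSubgroup
open scoped Matrix MatrixGroups Manifold Real

noncomputable section

namespace Fermat.Agent.S48.H528

open Fermat.Agent.S23 Fermat.Agent.S23.Cap Fermat.Agent.S48.H528.Gen
open Fermat.Agent.S48.H128
open Fermat.Agent.S20 (MF SF)

variable (M : ℕ)

/-- `ψ = 1` at `1`, `-1` at `-1`, `0` elsewhere -/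
def psiOne (x : ZMod M) : ℂ := if x = 1 then 1 else if x = -1 then -1 else 0

theorem one_ne_neg_one_zmod (hM : 3 ≤ M) : (1 : ZMod M) ≠ -1 := by
  intro h
  have h2 : ((2 : ℕ) : ZMod M) = 0 := by
    have h3 : (1 : ZMod M) + 1 = 0 := by
      nth_rewrite 1 [h]
      simp
    push_cast
    rw [← h3]
    norm_num
  rw [ZMod.natCast_eq_zero_iff] at h2
  have := Nat.le_of_dvd (by norm_num) h2
  omega

theorem norm_psiOne_le (x : ZMod M) : ‖psiOne M x‖ ≤ 1 := by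
  unfold psiOne
  split_ifs <;> simp

theorem psiOne_odd (hM : 3 ≤ M) (x : ZMod M) : psiOne M (-x) = -psiOne M x := by
  unfold psiOne
  have h1 := one_ne_neg_one_zmod M hM
  by_cases hx1 : x = 1
  · subst hx1
    simp [h1, h1.symm]
  · by_cases hx2 : x = -1
    · subst hx2
      simp [h1, h1.symm]
    · have h3 : -x ≠ 1 := fun h => hx2 (by rw [← h]; simp)
      have h4 : -x ≠ -1 := fun h => hx1 (neg_injective h)
      simp [hx1, hx2, h3, h4]

theorem psiOne_eq_one_iff (a : ZMod M) : psiOne M a = 1 ↔ a = 1 := by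
  unfold psiOne
  constructor
  · intro h
    by_contra h1
    rw [if_neg h1] at h
    split_ifs at h
    · norm_num at h
    · norm_num at h
  · intro h
    rw [if_pos h]

theorem psiOne_int (x : ZMod M) : ∃ m : ℤ, psiOne M x = (m : ℂ) := by
  unfold psiOne
  split_ifs
  · exact ⟨1, by simp⟩
  · exact ⟨-1, by simp⟩
  · exact ⟨0, by simp⟩

/-- the twists `ψ(· a)` -/
def psiTw (a : ZMod M) (x : ZMod M) : ℂ := psiOne M (x * a)

theorem norm_psiTw_le (a x : ZMod M) : ‖psiTw M a x‖ ≤ 1 := norm_psiOne_le M _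

theorem psiTw_odd (hM : 3 ≤ M) (a x : ZMod M) : psiTw M a (-x) = -psiTw M a x := by
  unfold psiTw
  rw [neg_mul, psiOne_odd M hM]

/-- the form `B` -/
def bForm : ℍ → ℂ := eisPsiN (psiOne M)

theorem bForm_mem_MF : bForm M ∈ MF (Gamma1 M) 3 :=
  eisPsiN_mem_MF _ (norm_psiOne_le M)

theorem bForm_coeff (hM : 3 ≤ M) (n : ℕ) :
    (qExpansion 1 (bForm M)).coeff n = sigmaPsi (psiOne M) n :=
  qExpansion_eisPsiN_coeff _ (norm_psiOne_le M) (psiOne_odd M hM) n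

theorem bForm_coeff_one (hM : 3 ≤ M) : (qExpansion 1 (bForm M)).coeff 1 = 1 := by
  rw [bForm_coeff M hM, sigmaPsi_one, psiOne_eq_one_iff]

theorem bForm_ne_zero (hM : 3 ≤ M) : ∃ τ, bForm M τ ≠ 0 := by
  by_contra hcon
  push Not at hcon
  have h0 : bForm M = 0 := funext hcon
  have h1 := bForm_coeff_one M hM
  rw [h0, qExpansion_zero] at h1
  simp at h1

theorem bForm_isInt (hM : 3 ≤ M) : IsIntSeries (qx (bForm M)) := by
  intro n
  rw [show PowerSeries.coeff n (qx (bForm M)) = (qExpansion 1 (bForm M)).coeff n from rfl,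
    bForm_coeff M hM]
  unfold sigmaPsi sigmaW
  choose m hm using psiOne_int M
  refine ⟨∑ x ∈ n.divisorsAntidiagonal, m ((x.1 : ℕ) : ZMod M) * (x.2 : ℤ) ^ 2, ?_⟩
  push_cast
  refine Finset.sum_congr rfl fun x _ => ?_
  rw [psiNat, hm]

theorem bForm_slash (γ : SL(2, ℤ)) (hγ : γ ∈ Gamma0 M) :
    bForm M ∣[(3 : ℤ)] γ = eisPsiN (psiTw M ((γ 1 1 : ℤ) : ZMod M)) :=
  eisPsiN_slash (psiOne M) γ hγ

theorem mem_Gamma1_of_bForm_slash (hM : 3 ≤ M) (γ : SL(2, ℤ)) (hγ : γ ∈ Gamma0 M)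
    (h : bForm M ∣[(3 : ℤ)] γ = bForm M) : γ ∈ Gamma1 M := by
  rw [bForm_slash M γ hγ] at h
  have h1 : (qExpansion 1 (eisPsiN (psiTw M ((γ 1 1 : ℤ) : ZMod M)))).coeff 1 = 1 := by
    rw [h]
    exact bForm_coeff_one M hM
  rw [qExpansion_eisPsiN_coeff _ (norm_psiTw_le M _) (psiTw_odd M hM _), sigmaPsi_one] at h1
  unfold psiTw at h1
  rw [one_mul, psiOne_eq_one_iff] at h1
  have h10 : ((γ 1 0 : ℤ) : ZMod M) = 0 := Gamma0_mem.mp hγ
  rw [Gamma1_mem]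
  refine ⟨?_, h1, h10⟩
  have hdet := Fermat.Agent.S23.H143.primElt_det_eq γ
  have h2 := congrArg (fun x : ℤ => (x : ZMod M)) hdet
  simp only [Int.cast_sub, Int.cast_mul, Int.cast_one] at h2
  rw [h1, h10] at h2
  simpa using h2

/-! ## The forms `t_c` -/

/-- `t_c = (A + c E₄) B` -/
def tFun [NeZero M] (c : ℕ) : ℍ → ℂ :=
  (⇑(Fermat.Agent.S23.H143.primElt M) + (c : ℂ) • ⇑E₄) * bForm M

variable [NeZero M]

theorem img_Gamma1_le : img (Gamma1 M) ≤ img (Gamma0 M) :=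
  Subgroup.map_mono (Gamma1_in_Gamma0 M)

theorem isMF_primElt : IsMF (img (Gamma1 M)) 4 ⇑(Fermat.Agent.S23.H143.primElt M) :=
  ⟨Fermat.Agent.S23.H143.restrictMF (img_Gamma1_le M) (Fermat.Agent.S23.H143.primElt M), rfl⟩

theorem isMF_E4 : IsMF (img (Gamma1 M)) 4 ⇑E₄ :=
  isMF_of_levelOne (Gamma1 M) ⟨E₄, rfl⟩

theorem isMF_bForm : IsMF (img (Gamma1 M)) 3 (bForm M) :=
  Fermat.Agent.S20.C0h516.mem_MF_iff_exists.mp (bForm_mem_MF M)

theorem isMF_aPart (c : ℕ) :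
    IsMF (img (Gamma1 M)) 4 (⇑(Fermat.Agent.S23.H143.primElt M) + (c : ℂ) • ⇑E₄) :=
  (isMF_primElt M).add ((isMF_E4 M).smul _)

theorem isMF_tFun (c : ℕ) : IsMF (img (Gamma1 M)) 7 (tFun M c) :=
  ((isMF_aPart M c).mul (isMF_bForm M)).congr_weight (by norm_num)

theorem hper_Gamma1 : (1 : ℝ) ∈ (img (Gamma1 M)).strictPeriods := by
  simp

theorem isInt_smul {F : PowerSeries ℂ} (hF : IsIntSeries F) (c : ℕ) :
    IsIntSeries ((c : ℂ) • F) := by
  intro n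
  obtain ⟨m, hm⟩ := hF n
  exact ⟨c * m, by rw [PowerSeries.coeff_smul, hm]; push_cast; rfl⟩

theorem tFun_isInt (hM : 3 ≤ M) (c : ℕ) : IsIntSeries (qx (tFun M c)) := by
  have hper := hper_Gamma1 M
  unfold tFun
  rw [qx_mul hper (isMF_aPart M c) (isMF_bForm M),
    qx_add hper (isMF_primElt M) ((isMF_E4 M).smul _), qx_smul hper _ (isMF_E4 M)]
  refine IsIntSeries.mul (IsIntSeries.add ?_ (isInt_smul ?_ c)) (bForm_isInt M hM)
  · exact Fermat.Agent.S23.H143.primElt_qExpansion_coeff_int M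
  · exact Fermat.Agent.S23.H143.E₄_qExpansion_coeff_int

theorem slash_SL_of_isMF {Γ : Subgroup SL(2, ℤ)} {k : ℤ} {f : ℍ → ℂ} (hf : IsMF (img Γ) k f)
    (δ : SL(2, ℤ)) (hδ : δ ∈ Γ) : f ∣[k] δ = f := by
  obtain ⟨F, rfl⟩ := hf
  rw [ModularForm.SL_slash]
  exact SlashInvariantForm.slash_action_eqn F _ ⟨δ, hδ, rfl⟩

theorem E4_slash (γ : SL(2, ℤ)) : (⇑E₄ : ℍ → ℂ) ∣[(4 : ℤ)] γ = ⇑E₄ := by
  rw [ModularForm.SL_slash]
  exact SlashInvariantForm.slash_action_eqn E₄ _ ⟨γ, rfl⟩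

theorem tFun_slash (c : ℕ) (γ : SL(2, ℤ)) :
    tFun M c ∣[(7 : ℤ)] γ =
      ((⇑(Fermat.Agent.S23.H143.primElt M) : ℍ → ℂ) ∣[(4 : ℤ)] γ + (c : ℂ) • ⇑E₄) *
        (bForm M ∣[(3 : ℤ)] γ) := by
  unfold tFun
  rw [show (7 : ℤ) = 4 + 3 by norm_num, ModularForm.mul_slash_SL2, SlashAction.add_slash,
    Fermat.Agent.S20.smul_slash_SL, E4_slash]

theorem mdiff_slash_of_isMF {Γ : Subgroup SL(2, ℤ)} {k : ℤ} {f : ℍ → ℂ} (hf : IsMF (img Γ) k f)
    (γ : SL(2, ℤ)) : MDiff (f ∣[k] γ) := by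
  obtain ⟨F, rfl⟩ := hf
  rw [ModularForm.SL_slash]
  exact (ModularForm.translate F _).holo'

theorem mdiff_of_isMF {Γ : Subgroup (GL (Fin 2) ℝ)} {k : ℤ} {f : ℍ → ℂ} (hf : IsMF Γ k f) :
    MDiff f := by
  obtain ⟨F, rfl⟩ := hf
  exact F.holo'

theorem E4_ne_zero : ∃ τ : ℍ, (⇑E₄ : ℍ → ℂ) τ ≠ 0 := by
  by_contra hcon
  push Not at hcon
  have h := Fermat.Agent.S23.H143.tendsto_E₄_atImInfty
  have h0 : (⇑E₄ : ℍ → ℂ) = fun _ => 0 := funext hcon
  rw [h0] at h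
  have := tendsto_nhds_unique h tendsto_const_nhds
  norm_num at this

/-- two different `c` cannot be bad for the same `γ ∉ Γ₁(M)` -/
theorem mem_Gamma1_of_two (hM : 3 ≤ M) (γ : SL(2, ℤ)) (c₁ c₂ : ℕ) (hc : c₁ ≠ c₂)
    (h₁ : tFun M c₁ ∣[(7 : ℤ)] γ = tFun M c₁) (h₂ : tFun M c₂ ∣[(7 : ℤ)] γ = tFun M c₂) :
    γ ∈ Gamma1 M := by
  rw [tFun_slash] at h₁ h₂
  set A : ℍ → ℂ := ⇑(Fermat.Agent.S23.H143.primElt M) with hA
  set A' : ℍ → ℂ := A ∣[(4 : ℤ)] γ with hA'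
  set B : ℍ → ℂ := bForm M with hB
  set B' : ℍ → ℂ := B ∣[(3 : ℤ)] γ with hB'
  have hAd : MDiff A := mdiff_of_isMF (isMF_primElt M)
  have hA'd : MDiff A' := mdiff_slash_of_isMF (isMF_primElt M) γ
  have hBd : MDiff B := mdiff_of_isMF (isMF_bForm M)
  have hB'd : MDiff B' := mdiff_slash_of_isMF (isMF_bForm M) γ
  have hEd : MDiff (⇑E₄ : ℍ → ℂ) := E₄.holo'
  have e₁ : ∀ τ, (A' τ + (c₁ : ℂ) * E₄ τ) * B' τ = (A τ + (c₁ : ℂ) * E₄ τ) * B τ := by
    intro τ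
    have := congrFun h₁ τ
    simpa [tFun] using this
  have e₂ : ∀ τ, (A' τ + (c₂ : ℂ) * E₄ τ) * B' τ = (A τ + (c₂ : ℂ) * E₄ τ) * B τ := by
    intro τ
    have := congrFun h₂ τ
    simpa [tFun] using this
  have hcc : ((c₁ : ℂ) - c₂) ≠ 0 := by
    rw [sub_ne_zero]
    exact_mod_cast hc
  -- `B' = B`
  have hBB : ∀ τ, (B' - B) τ = 0 := by
    apply Fermat.Agent.S23.Conv.eq_zero_of_mul_eq_zero_of_mdiff (hB'd.sub hBd) hEd E4_ne_zero
    intro τ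
    have h3 : ((c₁ : ℂ) - c₂) * ((B' - B) τ * E₄ τ) = 0 := by
      simp only [Pi.sub_apply]
      linear_combination e₁ τ - e₂ τ
    exact (mul_eq_zero.mp h3).resolve_left hcc
  have hBeq : B' = B := by
    ext τ
    have := hBB τ
    simp only [Pi.sub_apply] at this
    exact sub_eq_zero.mp this
  -- `A' = A`
  have hAA : ∀ τ, (A' - A) τ = 0 := by
    apply Fermat.Agent.S23.Conv.eq_zero_of_mul_eq_zero_of_mdiff (hA'd.sub hAd) hBd
      (bForm_ne_zero M hM)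
    intro τ
    have h3 := e₁ τ
    rw [hBeq] at h3
    simp only [Pi.sub_apply]
    linear_combination h3
  have hAeq : A' = A := by
    ext τ
    have := hAA τ
    simp only [Pi.sub_apply] at this
    exact sub_eq_zero.mp this
  have hγ0 : γ ∈ Gamma0 M := by
    by_contra hγ
    apply Fermat.Agent.S23.H143.primElt_slash_ne M γ hγ
    rw [hA', ModularForm.SL_slash] at hAeq
    exact hAeq
  exact mem_Gamma1_of_bForm_slash M hM γ hγ0 hBeq

theorem exists_good_c (hM : 3 ≤ M) :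
    ∃ c : ℕ, ∀ γ : SL(2, ℤ), γ ∉ Gamma1 M → tFun M c ∣[(7 : ℤ)] γ ≠ tFun M c := by
  by_contra hcon
  push Not at hcon
  choose g hg1 hg2 using hcon
  haveI : Finite (SL(2, ℤ) ⧸ Gamma1 M) := Subgroup.finite_quotient_of_finiteIndex
  obtain ⟨c₁, c₂, hne, heq⟩ := Finite.exists_ne_map_eq_of_infinite
    (fun c : ℕ => (QuotientGroup.mk (g c)⁻¹ : SL(2, ℤ) ⧸ Gamma1 M))
  have hδ : g c₁ * (g c₂)⁻¹ ∈ Gamma1 M := by
    have := QuotientGroup.eq.mp heq
    simpa using this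
  have h3 : tFun M c₁ ∣[(7 : ℤ)] g c₂ = tFun M c₁ := by
    have h4 := hg2 c₁
    have h5 : g c₁ = (g c₁ * (g c₂)⁻¹) * g c₂ := by group
    rw [h5, SlashAction.slash_mul, slash_SL_of_isMF (isMF_tFun M c₁) _ hδ] at h4
    exact h4
  exact hg1 c₂ (mem_Gamma1_of_two M hM (g c₂) c₁ c₂ hne h3 (hg2 c₂))

/-- **The distinguishing form for `Γ₁(M)`, `M ≥ 3`.** -/
theorem exists_tForm_Gamma1 (hM : 3 ≤ M) :
    ∃ (w : ℤ) (t : ℍ → ℂ), IsMF (img (Gamma1 M)) w t ∧ IsIntSeries (qx t) ∧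
      ∀ γ : GL (Fin 2) ℝ, γ ∈ SLZ → γ ∉ img (Gamma1 M) → t ∣[w] γ ≠ t := by
  obtain ⟨c, hc⟩ := exists_good_c M hM
  refine ⟨7, tFun M c, isMF_tFun M c, tFun_isInt M hM c, ?_⟩
  intro γ hγ hγ'
  obtain ⟨g, rfl⟩ := MonoidHom.mem_range.mp hγ
  have hg : g ∉ Gamma1 M := fun h => hγ' ⟨g, h, rfl⟩
  have := hc g hg
  rwa [ModularForm.SL_slash] at this

end Fermat.Agent.S48.H528

end

end PartTForm1

section PartGamma1Main

/-!
# S48 / INT (helper528) : rational structure of `S_k(Γ₁(M))`, every level `M ≥ 1`, every weight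

Output of the port of the S23 machine to `Γ₁(M)`:

* `galois_stable_Gamma1` : for every ring endomorphism `σ` of `ℂ` and every cusp form `f` of
  weight `k` on `Γ₁(M)` there is a cusp form `g` of weight `k` on `Γ₁(M)` with
  `a_n(g) = σ(a_n(f))` for all `n`  (in particular for `k = 1`: conjugate eigenforms at the SAME
  level);
* `bounded_denominators_Gamma1`;
* `intStr_Gamma1 : INT.IntStr M k` for all `M ≥ 1`, `k`; `intStrTwo : INT.IntStrTwoStatement`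
  (the input W2 of the INT plan) and `intStr_one` (weight one directly).
-/

set_option autoImplicit false
set_option linter.unusedSectionVars false
set_option linter.unusedVariables false

open UpperHalfPlane ModularForm ModularFormClass MatrixGroups CongruenceSubgroup

namespace Fermat.Agent.S48.H528

open Fermat.Agent.S23 Fermat.Agent.S23.Cap Fermat.Agent.S48.H528.Gen

theorem Gamma1_eq_Gamma0_of_le_two (M : ℕ) (hM0 : M ≠ 0) (hM : M ≤ 2) :
    Gamma1 M = Gamma0 M := by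
  ext γ
  rw [Gamma1_mem, Gamma0_mem]
  constructor
  · exact fun h => h.2.2
  · intro h
    have hdet := Fermat.Agent.S23.H143.primElt_det_eq γ
    have h2 := congrArg (fun x : ℤ => (x : ZMod M)) hdet
    simp only [Int.cast_sub, Int.cast_mul, Int.cast_one] at h2
    rw [h, mul_zero, sub_zero] at h2
    interval_cases M
    · exact absurd rfl hM0
    · exact ⟨Subsingleton.elim _ _, Subsingleton.elim _ _, h⟩
    · have key : ∀ a d : ZMod 2, a * d = 1 → a = 1 ∧ d = 1 := by decide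
      obtain ⟨ha, hd⟩ := key _ _ h2
      exact ⟨ha, hd, h⟩

/-- a distinguishing form for `Γ₁(M)`, every `M ≥ 1` -/
theorem exists_tForm_Gamma1_all (M : ℕ) [NeZero M] :
    ∃ (w : ℤ) (t : ℍ → ℂ), IsMF (img (Gamma1 M)) w t ∧ IsIntSeries (qx t) ∧
      ∀ γ : GL (Fin 2) ℝ, γ ∈ SLZ → γ ∉ img (Gamma1 M) → t ∣[w] γ ≠ t := by
  by_cases hM : 3 ≤ M
  · exact exists_tForm_Gamma1 M hM
  · rw [Gamma1_eq_Gamma0_of_le_two M (NeZero.ne M) (by omega)]
    exact Fermat.Agent.S23.Cap.exists_tForm M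

/-- **Galois stability of the q-expansions of `S_k(Γ₁(M))`.** -/
theorem galois_stable_Gamma1 (M : ℕ) [NeZero M] (k : ℤ) (σ : ℂ →+* ℂ)
    (f : CuspForm (Gamma1 M) k) :
    ∃ g : CuspForm (Gamma1 M) k, ∀ n : ℕ,
      ModularFormClass.qCoeff g n = σ (ModularFormClass.qCoeff f n) := by
  obtain ⟨w, t, ht, htint, hdist⟩ := exists_tForm_Gamma1_all M
  obtain ⟨g, ⟨G, rfl⟩, hg⟩ :=
    galois_stable (Gamma1 M) (hper_Gamma1 M) w t ht htint hdist k σ f ⟨f, rfl⟩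
  refine ⟨G, fun n => ?_⟩
  have := congrArg (PowerSeries.coeff n) hg
  simpa [ModularFormClass.qCoeff, qx] using this

/-- the same, power series form -/
theorem galois_stable_Gamma1_qExpansion (M : ℕ) [NeZero M] (k : ℤ) (σ : ℂ →+* ℂ)
    (f : CuspForm (Gamma1 M) k) :
    ∃ g : CuspForm (Gamma1 M) k, qExpansion 1 g = (qExpansion 1 f).map σ := by
  obtain ⟨w, t, ht, htint, hdist⟩ := exists_tForm_Gamma1_all M
  obtain ⟨g, ⟨G, rfl⟩, hg⟩ :=
    galois_stable (Gamma1 M) (hper_Gamma1 M) w t ht htint hdist k σ f ⟨f, rfl⟩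
  exact ⟨G, hg⟩

/-- a cusp form on `Γ₁(M)` with rational q-expansion has bounded denominators -/
theorem bounded_denominators_Gamma1 (M : ℕ) [NeZero M] (k : ℤ) (f : CuspForm (Gamma1 M) k)
    (hrat : ∀ n : ℕ, ∃ r : ℚ, ModularFormClass.qCoeff f n = (r : ℂ)) :
    ∃ D : ℕ, D ≠ 0 ∧ ∀ n : ℕ, ∃ m : ℤ, (D : ℂ) * ModularFormClass.qCoeff f n = (m : ℂ) := by
  obtain ⟨w, t, ht, htint, hdist⟩ := exists_tForm_Gamma1_all M
  obtain ⟨D, hD, hint⟩ :=
    bounded_denominators (Gamma1 M) (hper_Gamma1 M) w t ht htint hdist k f ⟨f, rfl⟩ hrat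
  refine ⟨D, hD, fun n => ?_⟩
  obtain ⟨m, hm⟩ := hint n
  refine ⟨m, ?_⟩
  rw [qx_smul (hper_Gamma1 M) _ (IsCF.isMF ⟨f, rfl⟩), PowerSeries.coeff_smul, smul_eq_mul] at hm
  exact hm

/-- **Integral structure of `S_k(Γ₁(M))`**, every level and weight. -/
theorem intStr_Gamma1 (M : ℕ) [NeZero M] (k : ℤ) : INT.IntStr M k := by
  obtain ⟨w, t, ht, htint, hdist⟩ := exists_tForm_Gamma1_all M
  exact span_int_eq_top (Gamma1 M) (hper_Gamma1 M) w t ht htint hdist k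

/-- **W2** of the INT plan. -/
theorem intStrTwo : INT.IntStrTwoStatement := by
  intro M hM _
  have : NeZero M := ⟨hM⟩
  exact intStr_Gamma1 M 2

/-- weight one directly -/
theorem intStr_one (M : ℕ) [NeZero M] : INT.IntStr M 1 := intStr_Gamma1 M 1

end Fermat.Agent.S48.H528


end PartGamma1Main
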