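import Mathlib

/-!
# S48 / LIFT-R — lifting idempotent matrices over "algebraically closed" local rings

`MonicSplits R` : every monic polynomial over `R` is a product of linear factors
(true for a valuation subring of an algebraically closed field, `monicSplits_valuationSubring`).

`exists_idempotent_lift` : if `R` is a local ring with `MonicSplits R` and `A` is a square matrix
over `R` whose reduction modulo the maximal ideal is idempotent, then some polynomial `f(A)` in
`A` is idempotent and has the same reduction as `A`.
-/

set_option autoImplicit false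

noncomputable section

open Polynomial IsLocalRing

namespace Fermat.Agent.S48.H528

/-- every monic polynomial over `R` is a product of linear factors -/
def MonicSplits (R : Type*) [CommRing R] : Prop :=
  ∀ P : R[X], P.Monic → ∃ s : Multiset R, P = (s.map (fun r => X - C r)).prod

section Coprime

variable {R : Type*} [CommRing R]

theorem isCoprime_X_sub_C_prod (a : R) (s : Multiset R) (h : ∀ b ∈ s, IsUnit (a - b)) :
    IsCoprime (X - C a) (s.map (fun r => X - C r)).prod := by
  induction s using Multiset.induction_on with
  | empty =>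
      rw [Multiset.map_zero, Multiset.prod_zero]
      exact isCoprime_one_right
  | cons b s ih =>
      rw [Multiset.map_cons, Multiset.prod_cons]
      exact IsCoprime.mul_right
        (isCoprime_X_sub_C_of_isUnit_sub (h b (Multiset.mem_cons_self b s)))
        (ih fun c hc => h c (Multiset.mem_cons_of_mem hc))

theorem isCoprime_prod_prod (s t : Multiset R) (h : ∀ a ∈ s, ∀ b ∈ t, IsUnit (a - b)) :
    IsCoprime (s.map (fun r => X - C r)).prod (t.map (fun r => X - C r)).prod := by
  induction s using Multiset.induction_on with
  | empty =>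
      rw [Multiset.map_zero, Multiset.prod_zero]
      exact isCoprime_one_left
  | cons a s ih =>
      rw [Multiset.map_cons, Multiset.prod_cons]
      exact IsCoprime.mul_left
        (isCoprime_X_sub_C_prod a t (h a (Multiset.mem_cons_self a s)))
        (ih fun c hc => h c (Multiset.mem_cons_of_mem hc))

end Coprime

section Field

variable {k : Type*} [Field k] {ι : Type*} [Fintype ι] [DecidableEq ι]

/-- a root of the characteristic polynomial of an idempotent matrix is `0` or `1` -/
theorem eq_zero_or_one_of_isRoot_charpoly (B : Matrix ι ι k) (hB : B * B = B) (x : k)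
    (hx : B.charpoly.eval x = 0) : x = 0 ∨ x = 1 := by
  rw [Matrix.eval_charpoly] at hx
  obtain ⟨v, hv, hv0⟩ := Matrix.exists_mulVec_eq_zero_iff.mpr hx
  have h1 : B.mulVec v = x • v := by
    have : (Matrix.scalar ι x - B).mulVec v = x • v - B.mulVec v := by
      rw [Matrix.sub_mulVec]
      congr 1
      ext i
      simp [Matrix.mulVec, dotProduct, Matrix.scalar_apply, Matrix.diagonal_apply]
    rw [this, sub_eq_zero] at hv0
    exact hv0.symm
  have h2 : B.mulVec (B.mulVec v) = B.mulVec v := by
    rw [Matrix.mulVec_mulVec, hB]
  rw [h1, Matrix.mulVec_smul, h1, smul_smul] at h2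
  have h3 : (x * x - x) • v = 0 := by
    rw [sub_smul, h2, sub_self]
  rcases smul_eq_zero.mp h3 with h | h
  · have : x * (x - 1) = 0 := by ring_nf; ring_nf at h; exact h
    rcases mul_eq_zero.mp this with h' | h'
    · exact Or.inl h'
    · exact Or.inr (sub_eq_zero.mp h')
  · exact absurd h hv

end Field

section Main

variable {R : Type*} [CommRing R] [IsLocalRing R]
variable {ι : Type*} [Fintype ι] [DecidableEq ι]

theorem mapMatrix_aeval (A : Matrix ι ι R) (f : R[X]) :
    (aeval A f).map (residue R) = aeval (A.map (residue R)) (f.map (residue R)) := by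
  have h := Polynomial.map_aeval_eq_aeval_map (S := Matrix ι ι R) (U := Matrix ι ι (ResidueField R))
    (φ := residue R) (ψ := (residue R).mapMatrix) (by
      ext r i j
      simp only [RingHom.coe_comp, Function.comp_apply, RingHom.mapMatrix_apply, Matrix.map_apply,
        Matrix.algebraMap_matrix_apply]
      split_ifs <;> simp) f A
  exact h

/-- **Idempotent lifting.** -/
theorem exists_idempotent_lift (hR : MonicSplits R) (A : Matrix ι ι R)
    (hA : A.map (residue R) * A.map (residue R) = A.map (residue R)) :
    ∃ f : R[X], aeval A f * aeval A f = aeval A f ∧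
      (aeval A f).map (residue R) = A.map (residue R) := by
  classical
  set res := residue R with hres
  set B := A.map res with hBdef
  set P : R[X] := A.charpoly * (X * (X - C 1)) with hPdef
  have hPmonic : P.Monic := (Matrix.charpoly_monic A).mul (monic_X.mul (monic_X_sub_C 1))
  obtain ⟨s, hs⟩ := hR P hPmonic
  have hPA : aeval A P = 0 := by
    rw [hPdef, map_mul, Matrix.aeval_self_charpoly, zero_mul]
  have hPmap : P.map res = B.charpoly * (X * (X - C 1)) := by
    rw [hPdef, Polynomial.map_mul, Polynomial.map_mul, Polynomial.map_sub, Polynomial.map_X,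
      Polynomial.map_C, map_one, ← Matrix.charpoly_map]
  -- the roots reduce to `0` or `1`
  have hroot : ∀ r ∈ s, res r = 0 ∨ res r = 1 := by
    intro r hr
    have h1 : P.eval r = 0 := by
      rw [hs, Polynomial.eval_multiset_prod]
      apply Multiset.prod_eq_zero
      rw [Multiset.mem_map]
      refine ⟨X - C r, Multiset.mem_map.mpr ⟨r, hr, rfl⟩, by simp⟩
    have h2 : (P.map res).eval (res r) = 0 := by
      rw [Polynomial.eval_map, Polynomial.eval₂_at_apply, h1, map_zero]
    rw [hPmap, Polynomial.eval_mul, Polynomial.eval_mul, Polynomial.eval_X, Polynomial.eval_sub,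
      Polynomial.eval_X, Polynomial.eval_C] at h2
    rcases mul_eq_zero.mp h2 with h | h
    · exact eq_zero_or_one_of_isRoot_charpoly B hA _ h
    · rcases mul_eq_zero.mp h with h' | h'
      · exact Or.inl h'
      · exact Or.inr (sub_eq_zero.mp h')
  set s₀ := s.filter (fun r => res r = 0) with hs₀
  set s₁ := s.filter (fun r => ¬ res r = 0) with hs₁
  set P₀ : R[X] := (s₀.map (fun r => X - C r)).prod with hP₀
  set P₁ : R[X] := (s₁.map (fun r => X - C r)).prod with hP₁
  have hsplit : P = P₀ * P₁ := by
    rw [hs, hP₀, hP₁, ← Multiset.prod_add, ← Multiset.map_add, hs₀, hs₁, Multiset.filter_add_not]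
  have hcop : IsCoprime P₀ P₁ := by
    apply isCoprime_prod_prod
    intro a ha b hb
    rw [hs₀, Multiset.mem_filter] at ha
    rw [hs₁, Multiset.mem_filter] at hb
    have hb1 : res b = 1 := (hroot b hb.1).resolve_left hb.2
    rw [← residue_ne_zero_iff_isUnit, map_sub, ← hres, ha.2, hb1, zero_sub]
    exact neg_ne_zero.mpr one_ne_zero
  obtain ⟨U, V, hUV⟩ := hcop
  refine ⟨U * P₀, ?_, ?_⟩
  · have h1 : (U * P₀) * (U * P₀) - U * P₀ = -(U * V) * P := by
      rw [hsplit]
      have : U * P₀ = 1 - V * P₁ := by rw [← hUV]; ring
      calc (U * P₀) * (U * P₀) - U * P₀ = (U * P₀) * ((U * P₀) - 1) := by ring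
        _ = (U * P₀) * (-(V * P₁)) := by rw [this]; ring
        _ = -(U * V) * (P₀ * P₁) := by ring
    have h2 : aeval A ((U * P₀) * (U * P₀) - U * P₀) = 0 := by
      rw [h1, map_mul, hPA, mul_zero]
    rw [map_sub, map_mul, sub_eq_zero] at h2
    exact h2
  · rw [mapMatrix_aeval]
    show aeval B ((U * P₀).map res) = B
    -- reductions of `P₀`, `P₁`
    have hP₀map : P₀.map res = X ^ (Multiset.card s₀) := by
      rw [hP₀, Polynomial.map_multiset_prod, Multiset.map_map]
      have : ∀ r ∈ s₀, (Polynomial.map res ∘ fun r => X - C r) r = (X : (ResidueField R)[X]) := by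
        intro r hr
        rw [hs₀, Multiset.mem_filter] at hr
        simp [hr.2]
      rw [Multiset.map_congr rfl this, Multiset.map_const', Multiset.prod_replicate]
    have hP₁map : P₁.map res = (X - C 1) ^ (Multiset.card s₁) := by
      rw [hP₁, Polynomial.map_multiset_prod, Multiset.map_map]
      have : ∀ r ∈ s₁, (Polynomial.map res ∘ fun r => X - C r) r
          = (X - C 1 : (ResidueField R)[X]) := by
        intro r hr
        rw [hs₁, Multiset.mem_filter] at hr
        have hr1 : res r = 1 := (hroot r hr.1).resolve_left hr.2
        simp [hr1]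
      rw [Multiset.map_congr rfl this, Multiset.map_const', Multiset.prod_replicate]
    have hPmap' : P.map res = X ^ (Multiset.card s₀) * (X - C 1) ^ (Multiset.card s₁) := by
      rw [hsplit, Polynomial.map_mul, hP₀map, hP₁map]
    have hc₀ : Multiset.card s₀ ≠ 0 := by
      intro h0
      have h := congrArg (Polynomial.eval (0 : ResidueField R)) hPmap'
      rw [hPmap, h0] at h
      simp only [eval_mul, eval_X, zero_mul, mul_zero, pow_zero, eval_pow, eval_sub, eval_C,
        zero_sub, one_mul] at h
      have h' : ((-1 : ResidueField R)) ^ (Multiset.card s₁) ≠ 0 :=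
        pow_ne_zero _ (neg_ne_zero.mpr one_ne_zero)
      exact h' h.symm
    have hc₁ : Multiset.card s₁ ≠ 0 := by
      intro h0
      have h := congrArg (Polynomial.eval (1 : ResidueField R)) hPmap'
      rw [hPmap, h0] at h
      simp at h
    have hUVmap : U.map res * P₀.map res + V.map res * P₁.map res = 1 := by
      rw [← Polynomial.map_mul, ← Polynomial.map_mul, ← Polynomial.map_add, hUV,
        Polynomial.map_one]
    -- `X (X - 1) ∣ f̄ - X`
    have hd₀ : (X : (ResidueField R)[X]) ∣ (U * P₀).map res - X := by
      rw [Polynomial.map_mul, hP₀map]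
      refine dvd_sub (Dvd.dvd.mul_left (dvd_pow_self X hc₀) _) dvd_rfl
    have hd₁ : (X - C 1 : (ResidueField R)[X]) ∣ (U * P₀).map res - X := by
      have : (U * P₀).map res - X = -(X - C 1) - V.map res * P₁.map res := by
        have h1 : U.map res * P₀.map res = 1 - V.map res * P₁.map res := by
          rw [← hUVmap]; ring
        rw [Polynomial.map_mul, h1, map_one]
        ring
      rw [this, hP₁map]
      exact dvd_sub (dvd_neg.mpr dvd_rfl) (Dvd.dvd.mul_left (dvd_pow_self _ hc₁) _)
    have hcop' : IsCoprime (X : (ResidueField R)[X]) (X - C 1) := by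
      have := isCoprime_X_sub_C_of_isUnit_sub (R := ResidueField R) (a := 0) (b := 1)
        (by simp)
      simpa using this
    obtain ⟨Q, hQ⟩ := hcop'.mul_dvd hd₀ hd₁
    have hB0 : aeval B (X * (X - C 1) : (ResidueField R)[X]) = 0 := by
      rw [map_mul, map_sub, aeval_X, aeval_C, map_one, mul_sub, mul_one, hA, sub_self]
    have h3 : aeval B ((U * P₀).map res - X) = 0 := by
      rw [hQ, map_mul, hB0, zero_mul]
    rw [map_sub, aeval_X, sub_eq_zero] at h3
    exact h3

end Main

section ValuationSubring

variable {K : Type*} [Field K] [IsAlgClosed K]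

/-- A valuation subring of an algebraically closed field has `MonicSplits`. -/
theorem monicSplits_valuationSubring (A : ValuationSubring K) : MonicSplits A := by
  intro P hP
  have hsp : (P.map (algebraMap A K)).Splits := IsAlgClosed.splits _
  have hmon : (P.map (algebraMap A K)).Monic := hP.map _
  have hprod := hsp.eq_prod_roots_of_monic hmon
  have hmem : ∀ z ∈ (P.map (algebraMap A K)).roots, z ∈ A := by
    intro z hz
    have hz0 : (P.map (algebraMap A K)).eval z = 0 := (Polynomial.mem_roots'.mp hz).2
    have hint : IsIntegral A z := ⟨P, hP, by rwa [Polynomial.eval_map] at hz0⟩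
    obtain ⟨y, hy⟩ := (IsIntegrallyClosed.isIntegral_iff (R := A) (K := K)).mp hint
    rw [← hy]
    exact y.2
  refine ⟨(P.map (algebraMap A K)).roots.attach.map (fun z => (⟨z.1, hmem z.1 z.2⟩ : A)), ?_⟩
  apply Polynomial.map_injective (algebraMap A K) (FaithfulSMul.algebraMap_injective A K)
  rw [Polynomial.map_multiset_prod, Multiset.map_map, Multiset.map_map]
  conv_lhs => rw [hprod]
  conv_lhs => rw [← Multiset.attach_map_val (P.map (algebraMap A K)).roots, Multiset.map_map]
  congr 1
  apply Multiset.map_congr rfl
  intro z _
  simp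

end ValuationSubring

end Fermat.Agent.S48.H528
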