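import Fermat.Agent.S48.H528.IdemLift

/-!
# S48 / LIFT-R — lifting representations of finite groups of invertible order

`R` a local ring with `MonicSplits R` (e.g. a valuation subring of `ℂ`), `k` its residue field,
`G` a finite group whose order is nonzero in `k`.  Every matrix representation
`ρ̄ : G →* Matrix n n k` lifts to `ρ : G →* Matrix n n R` with `(ρ g).map residue = ρ̄ g`.

Proof: `Ē = |G|⁻¹ Σ_g ρ̄(g) ⊗ g` is an idempotent of `M_n(k)[G]`, realised as a matrix on
`n × G` commuting with the translations `tr h`; lift it to an idempotent `E` commuting with the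
translations (`exists_idempotent_lift`); the columns `w_j = E e_{(j,1)}` span the image of `E`
and the translations act on them through the wanted matrices.
-/

set_option autoImplicit false
set_option linter.unusedSectionVars false
set_option linter.unusedSimpArgs false

noncomputable section

open Polynomial IsLocalRing Matrix

namespace Fermat.Agent.S48.H528

section Translation

variable {S : Type*} [CommRing S] {G : Type*} [Group G] [Fintype G] [DecidableEq G]
variable {n : Type*} [Fintype n] [DecidableEq n] {m : Type*} [Fintype m]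

/-- the translation by `g` on `n × G`, as a permutation matrix -/
def tr (S : Type*) [CommRing S] (n : Type*) [DecidableEq n] (g : G) :
    Matrix (n × G) (n × G) S :=
  fun p q => if p.1 = q.1 ∧ p.2 = g * q.2 then 1 else 0

theorem tr_mul_apply (g : G) (X : Matrix (n × G) m S) (p : n × G) (j : m) :
    (tr S n g * X) p j = X (p.1, g⁻¹ * p.2) j := by
  rw [Matrix.mul_apply, Finset.sum_eq_single (p.1, g⁻¹ * p.2)]
  · simp [tr]
  · intro x _ hx
    have : ¬ (p.1 = x.1 ∧ p.2 = g * x.2) := by
      rintro ⟨h1, h2⟩
      apply hx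
      ext
      · exact h1.symm
      · simp [h2]
    simp [tr, this]
  · intro h; exact absurd (Finset.mem_univ _) h

theorem mul_tr_apply (g : G) (Y : Matrix m (n × G) S) (i : m) (q : n × G) :
    (Y * tr S n g) i q = Y i (q.1, g * q.2) := by
  rw [Matrix.mul_apply, Finset.sum_eq_single (q.1, g * q.2)]
  · simp [tr]
  · intro x _ hx
    have : ¬ (x.1 = q.1 ∧ x.2 = g * q.2) := by
      rintro ⟨h1, h2⟩
      apply hx
      ext
      · exact h1
      · exact h2
    simp [tr, this]
  · intro h; exact absurd (Finset.mem_univ _) h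

theorem tr_one : tr S n (1 : G) = 1 := by
  ext p q
  rw [Matrix.one_apply]
  simp only [tr, one_mul]
  by_cases h : p = q
  · subst h; simp
  · rw [if_neg h, if_neg]
    rintro ⟨h1, h2⟩
    exact h (Prod.ext h1 h2)

theorem tr_mul (g h : G) : tr S n (g * h) = tr S n g * tr S n h := by
  ext p q
  rw [tr_mul_apply]
  simp only [tr]
  congr 1
  apply propext
  constructor
  · rintro ⟨h1, h2⟩
    exact ⟨h1, by rw [h2]; group⟩
  · rintro ⟨h1, h2⟩
    refine ⟨h1, ?_⟩
    have := congrArg (fun x => g * x) h2
    simpa [mul_assoc] using this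

omit [Fintype G] [Fintype n] in
theorem tr_map {S' : Type*} [CommRing S'] (f : S →+* S') (g : G) :
    (tr S n g).map f = tr S' n g := by
  ext p q
  simp only [Matrix.map_apply, tr]
  split_ifs <;> simp

end Translation

section Conv

variable {S : Type*} [CommRing S] {G : Type*} [Group G] [Fintype G] [DecidableEq G]
variable {n : Type*} [Fintype n] [DecidableEq n] {m : Type*} [Fintype m]

/-- the convolution identity behind all the computations -/
theorem sum_conv (ρ : G →* Matrix n n S) (a b : G) (i j : n) :
    ∑ r : n × G, ρ (a * r.2) i r.1 * ρ (r.2⁻¹ * b) r.1 j =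
      (Fintype.card G : S) * ρ (a * b) i j := by
  rw [Fintype.sum_prod_type_right]
  have h : ∀ x : G, ∑ l : n, ρ (a * x) i l * ρ (x⁻¹ * b) l j = ρ (a * b) i j := by
    intro x
    rw [← Matrix.mul_apply, ← map_mul]
    have : a * x * (x⁻¹ * b) = a * b := by group
    rw [this]
  simp only [h, Finset.sum_const, Finset.card_univ, nsmul_eq_mul]

/-- the averaging matrix `ν Σ_g α(g) ⊗ g` (an idempotent when `α` is multiplicative and
`ν = |G|⁻¹`) -/
def avgMat (ν : S) (α : G → Matrix n n S) : Matrix (n × G) (n × G) S :=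
  fun p q => ν * α (p.2⁻¹ * q.2) p.1 q.1

/-- the map `(x_g)_g ↦ Σ_g α(g) x_g` -/
def projMat (α : G → Matrix n n S) : Matrix n (n × G) S :=
  fun i q => α q.2 i q.1

/-- the inclusion of the component at `1 : G` -/
def inclMat (S : Type*) [CommRing S] (n : Type*) [DecidableEq n] (G : Type*) [Group G]
    [DecidableEq G] : Matrix (n × G) n S :=
  fun p j => if p.1 = j ∧ p.2 = 1 then 1 else 0

theorem mul_inclMat_apply (X : Matrix m (n × G) S) (i : m) (j : n) :
    (X * inclMat S n G) i j = X i (j, 1) := by
  rw [Matrix.mul_apply, Finset.sum_eq_single (j, (1 : G))]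
  · simp [inclMat]
  · intro x _ hx
    have : ¬ (x.1 = j ∧ x.2 = 1) := by
      rintro ⟨h1, h2⟩
      apply hx
      ext
      · exact h1
      · exact h2
    simp [inclMat, this]
  · intro h; exact absurd (Finset.mem_univ _) h

omit [Fintype G] [Fintype n] [DecidableEq n] [DecidableEq G] in
theorem avgMat_map {S' : Type*} [CommRing S'] (f : S →+* S') (ν : S) (α : G → Matrix n n S) :
    (avgMat ν α).map f = avgMat (f ν) (fun g => (α g).map f) := by
  ext p q
  simp [avgMat]

omit [Fintype G] [Fintype n] [DecidableEq n] [DecidableEq G] [Group G] in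
theorem projMat_map {S' : Type*} [CommRing S'] (f : S →+* S') (α : G → Matrix n n S) :
    (projMat α).map f = projMat (fun g => (α g).map f) := by
  ext p q
  simp [projMat]

omit [Fintype G] [Fintype n] in
theorem inclMat_map {S' : Type*} [CommRing S'] (f : S →+* S') :
    (inclMat S n G).map f = inclMat S' n G := by
  ext p q
  simp only [Matrix.map_apply, inclMat]
  split_ifs <;> simp

theorem tr_mul_avgMat (ν : S) (α : G → Matrix n n S) (h : G) :
    tr S n h * avgMat ν α = avgMat ν α * tr S n h := by
  ext p q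
  rw [tr_mul_apply, mul_tr_apply]
  simp only [avgMat, _root_.mul_inv_rev, inv_inv, mul_assoc]

theorem avgMat_mul_self (ρ : G →* Matrix n n S) (ν : S)
    (hν : ν * (Fintype.card G : S) = 1) :
    avgMat ν ρ * avgMat ν ρ = avgMat ν ρ := by
  ext p q
  rw [Matrix.mul_apply]
  have h : ∀ r : n × G, avgMat ν (fun g => ρ g) p r * avgMat ν (fun g => ρ g) r q =
      ν * ν * (ρ (p.2⁻¹ * r.2) p.1 r.1 * ρ (r.2⁻¹ * q.2) r.1 q.1) := by
    intro r
    simp only [avgMat]
    ring
  simp only [h]
  rw [← Finset.mul_sum, sum_conv]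
  simp only [avgMat]
  calc ν * ν * ((Fintype.card G : S) * ρ (p.2⁻¹ * q.2) p.1 q.1)
      = ν * (ν * (Fintype.card G : S)) * ρ (p.2⁻¹ * q.2) p.1 q.1 := by ring
    _ = ν * ρ (p.2⁻¹ * q.2) p.1 q.1 := by rw [hν, mul_one]

theorem avgMat_inclMat_apply (ν : S) (α : G → Matrix n n S) (p : n × G) (j : n) :
    (avgMat ν α * inclMat S n G) p j = ν * α (p.2⁻¹) p.1 j := by
  rw [mul_inclMat_apply]
  simp [avgMat]

theorem projMat_mul_tr_avgMat_inclMat (ρ : G →* Matrix n n S) (ν : S)
    (hν : ν * (Fintype.card G : S) = 1) (g : G) :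
    projMat ρ * (tr S n g * (avgMat ν ρ * inclMat S n G)) = ρ g := by
  ext i j
  rw [Matrix.mul_apply]
  have h : ∀ r : n × G, projMat (fun g => ρ g) i r *
      (tr S n g * (avgMat ν (fun g => ρ g) * inclMat S n G)) r j =
      ν * (ρ (1 * r.2) i r.1 * ρ (r.2⁻¹ * g) r.1 j) := by
    intro r
    rw [tr_mul_apply, avgMat_inclMat_apply]
    simp only [projMat, _root_.mul_inv_rev, inv_inv, one_mul]
    ring
  simp only [h]
  rw [← Finset.mul_sum, sum_conv, ← mul_assoc, hν, one_mul, one_mul]

theorem projMat_mul_avgMat_inclMat (ρ : G →* Matrix n n S) (ν : S)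
    (hν : ν * (Fintype.card G : S) = 1) :
    projMat ρ * (avgMat ν ρ * inclMat S n G) = 1 := by
  have h := projMat_mul_tr_avgMat_inclMat ρ ν hν 1
  rwa [tr_one, Matrix.one_mul, map_one] at h

theorem avgMat_inclMat_mul_projMat (ρ : G →* Matrix n n S) (ν : S) :
    avgMat ν ρ * inclMat S n G * projMat ρ = avgMat ν ρ := by
  ext p q
  rw [Matrix.mul_apply]
  simp only [avgMat_inclMat_apply]
  simp only [projMat, avgMat, map_mul, Matrix.mul_apply, Finset.mul_sum, mul_assoc]

end Conv

section Local

variable {R : Type*} [CommRing R] [IsLocalRing R]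
variable {ι : Type*} [Fintype ι] [DecidableEq ι]

theorem isUnit_det_of_map_eq_one (C : Matrix ι ι R) (h : C.map (residue R) = 1) :
    IsUnit C.det := by
  rw [← residue_ne_zero_iff_isUnit, RingHom.map_det, RingHom.mapMatrix_apply, h, Matrix.det_one]
  exact one_ne_zero

/-- an idempotent matrix over a local ring which vanishes modulo the maximal ideal is zero -/
theorem eq_zero_of_idempotent_of_map_eq_zero (Q : Matrix ι ι R) (hQ : Q * Q = Q)
    (h0 : Q.map (residue R) = 0) : Q = 0 := by
  have hdet : IsUnit (1 - Q).det := by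
    apply isUnit_det_of_map_eq_one
    have : (1 - Q).map (residue R) = (residue R).mapMatrix (1 - Q) := rfl
    rw [this, map_sub, map_one, RingHom.mapMatrix_apply, h0, sub_zero]
  have h1 : Q * (1 - Q) = 0 := by rw [mul_sub, mul_one, hQ, sub_self]
  have h2 : Q * (1 - Q) * (1 - Q)⁻¹ = Q := by
    rw [mul_assoc, Matrix.mul_nonsing_inv _ hdet, mul_one]
  rw [← h2, h1, zero_mul]

end Local

section Lift

variable {R : Type*} [CommRing R] [IsLocalRing R]
variable {G : Type*} [Group G] [Fintype G] [DecidableEq G]
variable {n : Type*} [Fintype n] [DecidableEq n]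

theorem commute_aeval_of_commute {ι : Type*} [Fintype ι] [DecidableEq ι]
    (T A : Matrix ι ι R) (h : T * A = A * T) (f : R[X]) :
    T * aeval A f = aeval A f * T := by
  have hc : Commute T A := h
  have : Commute T (aeval A f) := by
    rw [Polynomial.aeval_eq_sum_range]
    apply Commute.sum_right
    intro i _
    exact (hc.pow_right i).smul_right _
  exact this

/-- **Lifting representations of finite groups of invertible order** (matrix form). -/
theorem exists_lift_matrix (hR : MonicSplits R) (ρbar : G →* Matrix n n (ResidueField R))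
    (hN : (Fintype.card G : ResidueField R) ≠ 0) :
    ∃ ρ : G →* Matrix n n R, ∀ g, (ρ g).map (residue R) = ρbar g := by
  classical
  have hsurj : Function.Surjective (residue R) := residue_surjective
  obtain ⟨α, hα⟩ : ∃ α : G → Matrix n n R, ∀ g, (α g).map (residue R) = ρbar g := by
    refine ⟨fun g => (ρbar g).map (Function.surjInv hsurj), fun g => ?_⟩
    ext i j
    simp [Function.surjInv_eq hsurj]
  have hαfun : (fun g => (α g).map (residue R)) = fun g => ρbar g := funext hα
  have hNu : IsUnit (Fintype.card G : R) := by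
    rw [← residue_ne_zero_iff_isUnit, map_natCast]
    exact hN
  obtain ⟨u, hu⟩ := hNu
  obtain ⟨ν, hν⟩ : ∃ ν : R, ν * (Fintype.card G : R) = 1 :=
    ⟨((u⁻¹ : Rˣ) : R), by rw [← hu]; exact Units.inv_mul u⟩
  have hνres : residue R ν * (Fintype.card G : ResidueField R) = 1 := by
    rw [← map_natCast (residue R), ← map_mul, hν, map_one]
  -- the averaging matrix and its idempotent lift
  have hAres : (avgMat ν α).map (residue R) = avgMat (residue R ν) ρbar := by
    rw [avgMat_map, hαfun]
  have hAidem : (avgMat ν α).map (residue R) * (avgMat ν α).map (residue R) =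
      (avgMat ν α).map (residue R) := by
    rw [hAres]
    exact avgMat_mul_self ρbar _ hνres
  obtain ⟨f, hE, hEres⟩ := exists_idempotent_lift hR (avgMat ν α) hAidem
  obtain ⟨E, hEdef⟩ : ∃ E : Matrix (n × G) (n × G) R, E = aeval (avgMat ν α) f := ⟨_, rfl⟩
  rw [← hEdef] at hE hEres
  rw [hAres] at hEres
  have hEtr : ∀ h : G, tr R n h * E = E * tr R n h := by
    intro h
    rw [hEdef]
    exact commute_aeval_of_commute _ _ (tr_mul_avgMat ν α h) f
  -- the columns of `E` at `1 : G`
  obtain ⟨W, hWdef⟩ : ∃ W : Matrix (n × G) n R, W = E * inclMat R n G := ⟨_, rfl⟩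
  have hWres : W.map (residue R) =
      avgMat (residue R ν) ρbar * inclMat (ResidueField R) n G := by
    rw [hWdef, Matrix.map_mul, hEres, inclMat_map]
  have hEW : E * W = W := by rw [hWdef, ← Matrix.mul_assoc, hE]
  have hPres : (projMat α).map (residue R) = projMat ρbar := by
    rw [projMat_map, hαfun]
  obtain ⟨C, hCdef⟩ : ∃ C : Matrix n n R, C = projMat α * W := ⟨_, rfl⟩
  have hCres : C.map (residue R) = 1 := by
    rw [hCdef, Matrix.map_mul, hPres, hWres]
    exact projMat_mul_avgMat_inclMat ρbar _ hνres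
  have hCdet : IsUnit C.det := isUnit_det_of_map_eq_one C hCres
  have hCinvres : (C⁻¹).map (residue R) = 1 := by
    have h1 : (C⁻¹ * C).map (residue R) = 1 := by
      rw [Matrix.nonsing_inv_mul _ hCdet]
      ext i j
      simp [Matrix.one_apply]
    rwa [Matrix.map_mul, hCres, mul_one] at h1
  obtain ⟨L, hLdef⟩ : ∃ L : Matrix n (n × G) R, L = C⁻¹ * projMat α := ⟨_, rfl⟩
  have hLW : L * W = 1 := by
    rw [hLdef, Matrix.mul_assoc, ← hCdef]
    exact Matrix.nonsing_inv_mul C hCdet
  have hLres : L.map (residue R) = projMat ρbar := by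
    rw [hLdef, Matrix.map_mul, hCinvres, Matrix.one_mul, hPres]
  have hWLres : (W * L).map (residue R) = E.map (residue R) := by
    rw [Matrix.map_mul, hWres, hLres, hEres]
    exact avgMat_inclMat_mul_projMat ρbar _
  -- `E = W L E`
  have hQ : ((1 - W * L) * E) * ((1 - W * L) * E) = (1 - W * L) * E := by
    have h1 : E * ((1 - W * L) * E) = (1 - W * L) * E := by
      rw [sub_mul, one_mul, mul_sub, hE, ← mul_assoc, ← Matrix.mul_assoc E W L, hEW]
    have h2 : (1 - W * L) * (1 - W * L) = 1 - W * L := by
      have : W * L * (W * L) = W * L := by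
        rw [Matrix.mul_assoc, ← Matrix.mul_assoc L, hLW, Matrix.one_mul]
      rw [mul_sub, mul_one, sub_mul, one_mul, this, sub_self, sub_zero]
    rw [mul_assoc, h1, ← mul_assoc, h2]
  have hQ0 : ((1 - W * L) * E).map (residue R) = 0 := by
    have h1 : (1 - W * L).map (residue R) = 1 - E.map (residue R) := by
      have : (1 - W * L).map (residue R) = (residue R).mapMatrix (1 - W * L) := rfl
      rw [this, map_sub, map_one, RingHom.mapMatrix_apply, hWLres]
    rw [Matrix.map_mul, h1, sub_mul, one_mul, hEres, avgMat_mul_self ρbar _ hνres, sub_self]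
  have hQz := eq_zero_of_idempotent_of_map_eq_zero _ hQ hQ0
  have hWLE : W * L * E = E := by
    rw [sub_mul, one_mul, sub_eq_zero] at hQz
    exact hQz.symm
  have key : ∀ h : G, W * L * (tr R n h * W) = tr R n h * W := by
    intro h
    have h1 : tr R n h * W = E * (tr R n h * inclMat R n G) := by
      rw [hWdef, ← Matrix.mul_assoc, hEtr h, Matrix.mul_assoc]
    rw [h1, ← Matrix.mul_assoc, hWLE]
  refine ⟨{ toFun := fun g => L * (tr R n g * W), map_one' := ?_, map_mul' := ?_ }, ?_⟩
  · change L * (tr R n 1 * W) = 1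
    rw [tr_one, Matrix.one_mul]
    exact hLW
  · intro g h
    change L * (tr R n (g * h) * W) = L * (tr R n g * W) * (L * (tr R n h * W))
    calc L * (tr R n (g * h) * W) = L * (tr R n g * (tr R n h * W)) := by
          rw [tr_mul, Matrix.mul_assoc]
      _ = L * (tr R n g * (W * L * (tr R n h * W))) := by rw [key h]
      _ = L * (tr R n g * W) * (L * (tr R n h * W)) := by simp only [Matrix.mul_assoc]
  · intro g
    change (L * (tr R n g * W)).map (residue R) = ρbar g
    rw [Matrix.map_mul, Matrix.map_mul, hLres, hWres, tr_map]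
    exact projMat_mul_tr_avgMat_inclMat ρbar _ hνres g

end Lift

end Fermat.Agent.S48.H528
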