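import Fermat.Agent.S48.H528.Lift
import Fermat.Agent.S48.Top.Spec

/-!
# S48 / P6a — `liftStatement : Top.LiftStatement`  (helper528)

For every prime `ℓ` we take a valuation subring `R` of `ℂ` in which `ℓ` is not a unit
(Chevalley), `k := ResidueField R` and `φ : ℤ̄ ⊆ R → k`.  Every representation
`r : G →* GL₂(k)` of a finite group of order prime to `ℓ` lifts to `G →* GL₂(R) ⊆ GL₂(ℂ)`
(`exists_lift_matrix`, via idempotent lifting in `M_{2|G|}(R)`), and traces and determinants of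
finite-order matrices are algebraic integers.
-/

set_option autoImplicit false
set_option linter.unusedSectionVars false

noncomputable section

open Polynomial IsLocalRing Matrix

namespace Fermat.Agent.S48.H528

/-- trace and determinant of a complex matrix of finite order are algebraic integers -/
theorem isIntegral_trace_det_of_pow_eq_one (M : Matrix (Fin 2) (Fin 2) ℂ) (N : ℕ) (hN : 0 < N)
    (h : M ^ N = 1) : IsIntegral ℤ M.trace ∧ IsIntegral ℤ M.det := by
  have hroot : ∀ γ ∈ M.charpoly.roots, IsIntegral ℤ γ := by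
    intro γ hγ
    have h1 : γ ∈ spectrum ℂ M :=
      Matrix.mem_spectrum_iff_isRoot_charpoly.2 (Polynomial.isRoot_of_mem_roots hγ)
    have h2 := spectrum.pow_mem_pow M N h1
    rw [h, spectrum.one_eq] at h2
    have h3 : γ ^ N = 1 := h2
    exact IsIntegral.of_pow hN (h3 ▸ isIntegral_one)
  constructor
  · rw [Matrix.trace_eq_sum_roots_charpoly]
    exact IsIntegral.multiset_sum hroot
  · rw [Matrix.det_eq_prod_roots_charpoly]
    exact IsIntegral.multiset_prod hroot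

/-- a valuation subring of `ℂ` in which the prime `ℓ` is not a unit -/
theorem exists_valuationSubring_natCast_eq_zero (ℓ : ℕ) (hℓ : ℓ.Prime) :
    ∃ R : ValuationSubring ℂ, ((ℓ : ℕ) : ResidueField R) = 0 := by
  let A : Subring ℂ := (Int.castRingHom ℂ).range
  have hmem : ((ℓ : ℕ) : ℂ) ∈ A := ⟨(ℓ : ℤ), by simp⟩
  let I : Ideal A := Ideal.span {⟨((ℓ : ℕ) : ℂ), hmem⟩}
  have hI : I ≠ ⊤ := by
    intro htop
    have h1 : (1 : A) ∈ I := by rw [htop]; trivial
    obtain ⟨a, ha⟩ := Ideal.mem_span_singleton'.mp h1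
    obtain ⟨m, hm⟩ := a.2
    have h2 : ((m * (ℓ : ℤ) : ℤ) : ℂ) = ((1 : ℤ) : ℂ) := by
      have := congrArg (fun x : A => (x : ℂ)) ha
      simp only [Subring.coe_mul, Subring.coe_one] at this
      rw [← hm] at this
      push_cast
      simpa using this
    have h3 : m * (ℓ : ℤ) = 1 := by exact_mod_cast h2
    have h4 : (ℓ : ℤ) ∣ 1 := Dvd.intro_left m h3
    have h5 : ℓ ∣ 1 := by exact_mod_cast h4
    exact hℓ.one_lt.ne' (Nat.dvd_one.mp h5)
  obtain ⟨B, hAB, hB⟩ := Ideal.image_subset_nonunits_valuationSubring I hI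
  refine ⟨B, ?_⟩
  have h1 : ((ℓ : ℕ) : ℂ) ∈ B.nonunits :=
    hB ⟨⟨((ℓ : ℕ) : ℂ), hmem⟩, Ideal.subset_span rfl, rfl⟩
  obtain ⟨hb, hmax⟩ := ValuationSubring.mem_nonunits_iff_exists_mem_maximalIdeal.mp h1
  have h2 : ((ℓ : ℕ) : B) = ⟨((ℓ : ℕ) : ℂ), hb⟩ := Subtype.ext (by simp)
  rw [← map_natCast (residue B), h2]
  exact (residue_eq_zero_iff _).mpr hmax

/-- algebraic integers lie in every valuation subring of `ℂ` -/
theorem zbar_mem_valuationSubring (R : ValuationSubring ℂ) (x : Top.Zbar) : (x : ℂ) ∈ R := by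
  have h1 : IsIntegral ℤ (x : ℂ) := x.2
  have h2 : IsIntegral R (x : ℂ) := h1.tower_top
  obtain ⟨y, hy⟩ := (IsIntegrallyClosed.isIntegral_iff (R := R) (K := ℂ)).mp h2
  rw [← hy]
  exact y.2

/-- the inclusion `ℤ̄ ⊆ R` -/
def zbarToVal (R : ValuationSubring ℂ) : Top.Zbar →+* R :=
  RingHom.codRestrict (algebraMap Top.Zbar ℂ) R (zbar_mem_valuationSubring R)

theorem coe_zbarToVal (R : ValuationSubring ℂ) (x : Top.Zbar) :
    ((zbarToVal R x : R) : ℂ) = (x : ℂ) := rfl

/-- **P6a (LIFT).** -/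
theorem liftStatement : Top.LiftStatement := by
  intro ℓ hℓ
  obtain ⟨R, hR0⟩ := exists_valuationSubring_natCast_eq_zero ℓ hℓ
  have hchar : CharP (ResidueField R) ℓ := (CharP.charP_iff_prime_eq_zero hℓ).mpr hR0
  refine ⟨ResidueField R, inferInstance, hchar, (residue R).comp (zbarToVal R), ?_⟩
  intro G _ _ hcard r
  classical
  let _ : Fintype G := Fintype.ofFinite G
  have hN : ((Fintype.card G : ℕ) : ResidueField R) ≠ 0 := by
    rw [Ne, CharP.cast_eq_zero_iff (ResidueField R) ℓ, ← Nat.card_eq_fintype_card]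
    exact hcard
  obtain ⟨ρ₀, hρ₀⟩ := exists_lift_matrix (monicSplits_valuationSubring R)
    ((Units.coeHom (Matrix (Fin 2) (Fin 2) (ResidueField R))).comp r) hN
  let Rc : G →* GL (Fin 2) ℂ :=
    (Units.map (R.subtype.mapMatrix (m := Fin 2)).toMonoidHom).comp ρ₀.toHomUnits
  have hRc : ∀ g, ((Rc g : GL (Fin 2) ℂ) : Matrix (Fin 2) (Fin 2) ℂ) =
      (ρ₀ g).map R.subtype := fun g => rfl
  refine ⟨Rc, fun g => ?_⟩
  have hpow : ((Rc g : GL (Fin 2) ℂ) : Matrix (Fin 2) (Fin 2) ℂ) ^ Fintype.card G = 1 := by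
    rw [← Units.val_pow_eq_pow_val, ← map_pow, pow_card_eq_one, map_one, Units.val_one]
  obtain ⟨hint_t, hint_d⟩ := isIntegral_trace_det_of_pow_eq_one _ _ Fintype.card_pos hpow
  have htr : ((Rc g : GL (Fin 2) ℂ) : Matrix (Fin 2) (Fin 2) ℂ).trace =
      (((ρ₀ g).trace : R) : ℂ) := by
    rw [hRc]
    exact (AddMonoidHom.map_trace R.subtype.toAddMonoidHom (ρ₀ g)).symm
  have hdet : ((Rc g : GL (Fin 2) ℂ) : Matrix (Fin 2) (Fin 2) ℂ).det =
      (((ρ₀ g).det : R) : ℂ) := by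
    rw [hRc]
    exact (RingHom.map_det R.subtype (ρ₀ g)).symm
  have hrtr : residue R (ρ₀ g).trace =
      ((r g : GL (Fin 2) (ResidueField R)) : Matrix (Fin 2) (Fin 2) (ResidueField R)).trace := by
    have h1 : residue R (ρ₀ g).trace = ((ρ₀ g).map (residue R)).trace :=
      AddMonoidHom.map_trace (residue R).toAddMonoidHom (ρ₀ g)
    rw [h1, hρ₀ g]
    rfl
  have hrdet : residue R (ρ₀ g).det =
      ((r g : GL (Fin 2) (ResidueField R)) : Matrix (Fin 2) (Fin 2) (ResidueField R)).det := by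
    rw [RingHom.map_det]
    congr 1
    exact hρ₀ g
  refine ⟨⟨_, hint_t⟩, ⟨_, hint_d⟩, rfl, rfl, ?_, ?_⟩
  · rw [← hrtr]
    change residue R (zbarToVal R ⟨_, hint_t⟩) = _
    have h1 : zbarToVal R ⟨_, hint_t⟩ = (ρ₀ g).trace := Subtype.ext htr
    rw [h1]
  · rw [← hrdet]
    change residue R (zbarToVal R ⟨_, hint_d⟩) = _
    have h1 : zbarToVal R ⟨_, hint_d⟩ = (ρ₀ g).det := Subtype.ext hdet
    rw [h1]

end Fermat.Agent.S48.H528
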